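import Fermat.Agent.S38.IA.Spec

/-!
# Row HARD: the core statement for `5 ≤ p`   (helper995)

The Hecke side of row HARD is built for `5 ≤ p` only (`S38/IA/Hecke/Spec3.lean`, helper3: for
`p = 3` the freeness of the Betti module needs an auxiliary level).  Frey packages have `p ≥ 5`,
so `IACore5Statement` is what the TOP glue of S43 consumes.
-/

set_option autoImplicit false

open IsLocalRing

namespace Fermat.Agent.S38.IA

open Fermat.Agent.S59.Arch Fermat.Agent.S59.TW.H959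

/-- **IA-CORE for `5 ≤ p`**: level lowering at a pivot. -/
def IACore5Statement : Prop :=
  ∀ (p : ℕ) [Fact p.Prime] (_hp5 : 5 ≤ p)
    (𝒪 : Type) [CommRing 𝒪] [IsDomain 𝒪] [IsDiscreteValuationRing 𝒪]
    [IsAdicComplete (maximalIdeal 𝒪) 𝒪] [Finite (ResidueField 𝒪)] [CharZero 𝒪]
    (ρbar : ResidualGaloisRep (ResidueField 𝒪)) (Smin : Finset ℕ)
    (_h : ResidualHyp p 𝒪 ρbar Smin)
    (_hflat : (GaloisRepAdic.ofResidualGaloisRep ρbar).IsFlatAt p)
    (Piv : Finset ℕ) (_hPiv : IsPivotSet p ρbar Smin Piv) (_hne : Piv.Nonempty)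
    (_hroots : ∀ q ∈ Piv, ∀ m : ℕ, p ^ m ∣ q - 1 → ∃ ζ : 𝒪, IsPrimitiveRoot ζ (p ^ m))
    (_hmod : ResModular 𝒪 ρbar (ribetLevel p Smin Piv) (Smin ∪ Piv)),
    ∃ q ∈ Piv, ∃ S : Finset ℕ, ResModular 𝒪 ρbar (ribetLevel p Smin (Piv.erase q)) S

/-- The general statement implies the one for `5 ≤ p`. -/
theorem iaCore5_of_iaCore (h : IACoreStatement) : IACore5Statement :=
  fun p _ _ 𝒪 _ _ _ _ _ _ ρbar Smin hh hflat Piv hPiv hne hroots hmod =>
    h p 𝒪 ρbar Smin hh hflat Piv hPiv hne hroots hmod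

end Fermat.Agent.S38.IA
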