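import Fermat.Agent.S38.IA.Spec

/-!
# Row HARD: frozen interface, part 2 — local rings (LOC) and Galois side (GAL)   (helper995)

Board `coord/HARD.md` §3.  Notation: `κ` = the pivots, `g` free variables,
`P = LocAmb 𝒪 κ g = 𝒪⟦v_{q,0..2}, w_{q,0..2} (q ∈ κ), x_1..x_g⟧`.
The variables `v_{q,j}`, `w_{q,j}` are the TRACELESS COORDINATES of `Σ_q = ρ(σ_q)` (a generator of
tame inertia at `q`) and of `Φ_q = ρ(φ_q)` (a Frobenius at `q`) in a basis: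
for an endomorphism with matrix `[[a, b], [c, d]]` the traceless coordinates `(u₀, u₁, u₂)` are
`2 u₀ = a - d`, `u₁ = b`, `u₂ = c`  (`IsTracelessCoords`).  With `Q(u) = u₀² + u₁ u₂`:
`tr² - 4 det = 4 Q(u)`, and two endomorphisms commute iff the `2 × 2` minors of their traceless
coordinates vanish.

* type `ψ` at `q` (inertia acts through `ψ ⊕ ψ⁻¹`, `ψ(σ_q) = ζ ≠ 1` of `p`-power order):
  `Q(v_q) = δ²`, `2 δ ζ = ζ² - 1`, and `Φ_q Σ_q = Σ_q Φ_q`;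
* the Steinberg element: `tr(Φ_q)² - (1+q)² = 4 Q(w_q) - (q-1)²` (`det Φ_q = q`).
-/

set_option autoImplicit false

open Polynomial IsLocalRing

namespace Fermat.Agent.S38.IA

open Fermat.Agent.S59.Arch Fermat.Agent.S59.TW.H959

/-! ## The ambient ring and its elements -/

/-- The ambient power series ring `𝒪⟦v_{q,j}, w_{q,j}, x_i⟧`: index `(q, j)` with `j < 3` is
`v_{q,j}`, index `(q, 3 + j)` is `w_{q,j}`. -/
abbrev LocAmb (𝒪 : Type) [CommRing 𝒪] (κ : Type) (g : ℕ) : Type :=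
  MvPowerSeries ((κ × Fin 6) ⊕ Fin g) 𝒪

section Amb

variable (𝒪 : Type) [CommRing 𝒪] {κ : Type} (g : ℕ)

/-- The variable `v_{q,j}` (traceless coordinates of `Σ_q`). -/
noncomputable def vVar (q : κ) (j : Fin 3) : LocAmb 𝒪 κ g :=
  MvPowerSeries.X (Sum.inl (q, Fin.castLE (by norm_num) j))

/-- The variable `w_{q,j}` (traceless coordinates of `Φ_q`). -/
noncomputable def wVar (q : κ) (j : Fin 3) : LocAmb 𝒪 κ g :=
  MvPowerSeries.X (Sum.inl (q, Fin.natAdd 3 j))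

/-- `Q(v_q) = v₀² + v₁ v₂`. -/
noncomputable def qV (q : κ) : LocAmb 𝒪 κ g :=
  vVar 𝒪 g q 0 ^ 2 + vVar 𝒪 g q 1 * vVar 𝒪 g q 2

/-- `Q(w_q) = w₀² + w₁ w₂`. -/
noncomputable def qW (q : κ) : LocAmb 𝒪 κ g :=
  wVar 𝒪 g q 0 ^ 2 + wVar 𝒪 g q 1 * wVar 𝒪 g q 2

/-- The minors `w_i v_j - w_j v_i` (they vanish iff `Φ_q` and `Σ_q` commute). -/
noncomputable def minor (q : κ) (i j : Fin 3) : LocAmb 𝒪 κ g :=
  wVar 𝒪 g q i * vVar 𝒪 g q j - wVar 𝒪 g q j * vVar 𝒪 g q i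

/-- **The type ideal** of the type vector `δ` (`δ_q = (ζ_q - ζ_q⁻¹)/2`): generated by
`Q(v_q) - δ_q²` and the minors, for all pivots `q`. -/
noncomputable def typeIdeal (δ : κ → 𝒪) : Ideal (LocAmb 𝒪 κ g) :=
  Ideal.span ({a | ∃ q : κ, a = qV 𝒪 g q - MvPowerSeries.C (δ q) ^ 2} ∪
    {a | ∃ (q : κ) (i j : Fin 3), a = minor 𝒪 g q i j})

/-- **The Steinberg element** at the pivot `q` (`qn` = the prime number):
`4 Q(w_q) - (qn - 1)² = tr(Φ_q)² - (1 + qn)²` when `det Φ_q = qn`. -/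
noncomputable def hElt (q : κ) (qn : ℕ) : LocAmb 𝒪 κ g :=
  4 * qW 𝒪 g q - MvPowerSeries.C (((qn : 𝒪) - 1) ^ 2)

end Amb

/-- `δ` is a **type value** at a prime `q ≡ 1 mod p`: `2 δ ζ = ζ² - 1` for a root of unity
`ζ ≠ 1` of `p`-power order with `ζ^(q-1) = 1`. -/
def IsTypeValue {𝒪 : Type} [CommRing 𝒪] (p q : ℕ) (δ : 𝒪) : Prop :=
  ∃ ζ : 𝒪, ζ ≠ 1 ∧ (∃ m : ℕ, ζ ^ p ^ m = 1) ∧ ζ ^ (q - 1) = 1 ∧ 2 * δ * ζ = ζ ^ 2 - 1

/-- `u` are the **traceless coordinates** of the endomorphism `f` in the basis `bas`. -/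
def IsTracelessCoords {R V : Type} [CommRing R] [AddCommGroup V] [Module R V]
    (bas : Module.Basis (Fin 2) R V) (f : Module.End R V) (u : Fin 3 → R) : Prop :=
  2 * u 0 = LinearMap.toMatrix bas bas f 0 0 - LinearMap.toMatrix bas bas f 1 1 ∧
    u 1 = LinearMap.toMatrix bas bas f 0 1 ∧ u 2 = LinearMap.toMatrix bas bas f 1 0

/-! ## LOC: the three local leaves (Mathlib only) -/

/-- **LOC-PRIME.**  The type ideal of a vector of type values is prime. -/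
def IALocPrimeStatement : Prop :=
  ∀ (p : ℕ) [Fact p.Prime] (_hp2 : p ≠ 2)
    (𝒪 : Type) [CommRing 𝒪] [IsDomain 𝒪] [IsDiscreteValuationRing 𝒪]
    [IsAdicComplete (maximalIdeal 𝒪) 𝒪] [CharZero 𝒪] (_hp𝒪 : (p : 𝒪) ∈ maximalIdeal 𝒪)
    (Piv : Finset ℕ) (_hPiv : ∀ q ∈ Piv, q.Prime ∧ p ∣ q - 1) (g : ℕ)
    (δ : Piv → 𝒪) (_hδ : ∀ q : Piv, IsTypeValue p (q : ℕ) (δ q)),
    (typeIdeal 𝒪 g δ).IsPrime

/-- **LOC-DIM.**  `dim P / typeIdeal δ ≤ 1 + 3 k + g`. -/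
def IALocDimStatement : Prop :=
  ∀ (p : ℕ) [Fact p.Prime] (_hp2 : p ≠ 2)
    (𝒪 : Type) [CommRing 𝒪] [IsDomain 𝒪] [IsDiscreteValuationRing 𝒪]
    [IsAdicComplete (maximalIdeal 𝒪) 𝒪] [CharZero 𝒪] (_hp𝒪 : (p : 𝒪) ∈ maximalIdeal 𝒪)
    (Piv : Finset ℕ) (_hPiv : ∀ q ∈ Piv, q.Prime ∧ p ∣ q - 1) (g : ℕ)
    (δ : Piv → 𝒪) (_hδ : ∀ q : Piv, IsTypeValue p (q : ℕ) (δ q)),
    ringKrullDim (LocAmb 𝒪 Piv g ⧸ typeIdeal 𝒪 g δ) ≤ ((1 + 3 * Piv.card + g : ℕ) : WithBot ℕ∞)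

/-- **LOC-POINT.**  Every component carries an `𝒪`-point at which the Steinberg element at `q₀`
is not divisible by `lam = ζ_p - 1`, provided `𝒪` has an element `ϖ' ∈ 𝔪` with `lam ∤ ϖ'²`
(e.g. `ϖ' = ζ_{p²} - 1`). -/
def IALocPointStatement : Prop :=
  ∀ (p : ℕ) [Fact p.Prime] (_hp2 : p ≠ 2)
    (𝒪 : Type) [CommRing 𝒪] [IsDomain 𝒪] [IsDiscreteValuationRing 𝒪]
    [IsAdicComplete (maximalIdeal 𝒪) 𝒪] [CharZero 𝒪] (_hp𝒪 : (p : 𝒪) ∈ maximalIdeal 𝒪)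
    (lam ϖ' : 𝒪) (_hlam : lam ∣ (p : 𝒪)) (_hϖ' : ϖ' ∈ maximalIdeal 𝒪) (_hϖ'2 : ¬ lam ∣ ϖ' ^ 2)
    (Piv : Finset ℕ) (_hPiv : ∀ q ∈ Piv, q.Prime ∧ p ∣ q - 1) (g : ℕ)
    (δ : Piv → 𝒪) (_hδ : ∀ q : Piv, IsTypeValue p (q : ℕ) (δ q)) (q₀ : Piv),
    ∃ x : LocAmb 𝒪 Piv g →ₐ[𝒪] 𝒪, typeIdeal 𝒪 g δ ≤ RingHom.ker (x : LocAmb 𝒪 Piv g →+* 𝒪) ∧
      ¬ lam ∣ x (hElt 𝒪 g q₀ (q₀ : ℕ))

/-! ## GAL: the relative presentation -/

/-- **LEAF GAL of row HARD.**  There is `r ≥ 3 k` such that for every `n` there is a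
Taylor–Wiles set `Q_n` of `r` primes (relative to `Smin ∪ Piv`) with: every universal
deformation ring `R_{Q_n}` of type `Smin ∪ Piv ∪ Q_n` (NO condition at the pivots) is a quotient
`γ : P ↠ R_{Q_n}` of the ambient ring with `g = r - 3 k` free variables, where
* `γ(v_{q,j})`, `γ(w_{q,j})` are the traceless coordinates of `ρ^univ(σ_q)`, `ρ^univ(φ_q)` in a
  basis (`φ_q` a Frobenius, `σ_q` an inertia element at a place over `q`), `det = 1` resp. `q`;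
* (TYPE) at every characteristic-zero point `y` of `R_{Q_n}` whose representation is not unipotent
  on inertia at the pivots, `y ∘ γ` kills the type ideal of SOME vector of type values. -/
def IAGalStatement : Prop :=
  ∀ (p : ℕ) [Fact p.Prime]
    (𝒪 : Type) [CommRing 𝒪] [IsDomain 𝒪] [IsDiscreteValuationRing 𝒪]
    [IsAdicComplete (maximalIdeal 𝒪) 𝒪] [Finite (ResidueField 𝒪)] [CharZero 𝒪]
    (ρbar : ResidualGaloisRep (ResidueField 𝒪)) (Smin : Finset ℕ)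
    (_h : ResidualHyp p 𝒪 ρbar Smin)
    (_hflat : (GaloisRepAdic.ofResidualGaloisRep ρbar).IsFlatAt p)
    (Piv : Finset ℕ) (_hPiv : IsPivotSet p ρbar Smin Piv)
    (_hroots : ∀ q ∈ Piv, ∀ m : ℕ, p ^ m ∣ q - 1 → ∃ ζ : 𝒪, IsPrimitiveRoot ζ (p ^ m)),
    ∃ r : ℕ, 3 * Piv.card ≤ r ∧ ∀ n : ℕ, ∃ qv : Fin r → ℕ, IsTWSet p ρbar (Smin ∪ Piv) n qv ∧
      ∀ DQ : GaloisRep.DeformationRingData 𝒪 ρbar
          (sigmaCond 𝒪 p .flat Smin (Smin ∪ Piv ∪ Finset.univ.image qv)),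
        ∃ (bas : Module.Basis (Fin 2) DQ.R DQ.ρ.V)
          (Pv : Piv → ValuationSubring (AlgebraicClosure ℚ))
          (φv σv : Piv → (AlgebraicClosure ℚ ≃ₐ[ℚ] AlgebraicClosure ℚ))
          (γ : LocAmb 𝒪 Piv (r - 3 * Piv.card) →ₐ[𝒪] DQ.R),
          Function.Surjective γ ∧
          (∀ q : Piv, (Pv q).LiesOverPrime (q : ℕ) ∧ (Pv q).IsFrobeniusAt (φv q) (q : ℕ) ∧
            σv q ∈ (Pv q).inertiaSubgroupIn ℚ) ∧
          (∀ q : Piv, IsTracelessCoords bas (DQ.ρ.ρ (σv q))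
            (fun j => γ (vVar 𝒪 (r - 3 * Piv.card) q j))) ∧
          (∀ q : Piv, IsTracelessCoords bas (DQ.ρ.ρ (φv q))
            (fun j => γ (wVar 𝒪 (r - 3 * Piv.card) q j))) ∧
          (∀ q : Piv, LinearMap.det (DQ.ρ.ρ (φv q)) = ((q : ℕ) : DQ.R)) ∧
          (∀ (𝒪' : Type) [CommRing 𝒪'] [IsDomain 𝒪'] [IsDiscreteValuationRing 𝒪'] [CharZero 𝒪']
              [Algebra 𝒪 𝒪'] (y : DQ.R →ₐ[𝒪] 𝒪') (hy : IsLocalHom (y : DQ.R →+* 𝒪')),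
              (∀ q ∈ Piv,
                ¬ (DQ.ρ.baseChangeAlong (y : DQ.R →+* 𝒪') hy).IsUnipotentOnInertiaAt q) →
              ∃ δ : Piv → 𝒪, (∀ q : Piv, IsTypeValue p (q : ℕ) (δ q)) ∧
                ∀ a ∈ typeIdeal 𝒪 (r - 3 * Piv.card) δ, y (γ a) = 0)

end Fermat.Agent.S38.IA
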