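import Fermat.Agent.S38.IA.AsmPoint
import Fermat.Agent.S59.Arch.WilesLevel

/-!
# Row HARD: THE ASSEMBLY — `IACoreStatement` from the frozen leaves   (helper995)

`iaCore_of_leaves :
  S53 → COND → S54 → BRIDGE-1 → BRIDGE-2 → BRIDGE-3 → LOC-COMP → LOC-DIM → GAL → HECKE
    → IACoreStatement`.

Proof.  Suppose `ρ̄` is modular of none of the levels `L / q`, `q ∈ Piv` (MIN).
* HECKE gives the rank `d > 0` and the modules `M_Q`; GAL gives `r` and the Taylor–Wiles sets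
  `Q_n` with the presentations `γ_n : P ↠ R_{Q_n}`, `P = 𝒪⟦v, w, x⟧`.
* `ι` = the (finite, nonempty) set of type vectors; LOC-COMP gives the primes `𝔓_δ`;
  `J = ⋂ 𝔓_δ`, `A = P ⧸ J`.
* `J` kills `M_Q`: by (SUPP-NU) it suffices to see that `x ∘ φ_Q ∘ γ` kills `J` for the points
  `x` of `T_Q` which are not unipotent at the pivots; for such `x` the point `x ∘ φ_Q` of `R_Q`
  is not unipotent at the pivots, so `x ∘ φ_Q ∘ γ` kills some `typeIdeal δ` (TYPE), hence `𝔓_δ`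
  (FACTOR).
* So `M_Q` is an `A`-module, BRIDGE-2 gives the level, and the multi-component engine
  (`ia_multi_false_of_ialevels`) with the characteristic-`p` points gives `False`.
-/

set_option autoImplicit false
set_option linter.unusedSectionVars false
set_option linter.style.haveILetI false
set_option linter.unusedVariables false
set_option maxHeartbeats 1600000

open IsLocalRing

namespace Fermat.Agent.S38.IA

open Fermat.Agent.S59.Arch Fermat.Agent.S59.TW.H959 Fermat.Agent.S59.Patch.H967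
  Fermat.Agent.S38.H901 Fermat.Agent.S53.H113 Fermat.Agent.S53.H596

/-- A root of unity of `p`-power order is `≡ 1` modulo the maximal ideal. -/
theorem sub_one_mem_of_pow_eq_one_h995 (p : ℕ) (hp : p.Prime) (R : Type) [CommRing R]
    [IsLocalRing R] (hpR : (p : R) ∈ maximalIdeal R) (ζ : R) (m : ℕ) (hζ : ζ ^ p ^ m = 1) :
    ζ - 1 ∈ maximalIdeal R := by
  have hF : Fact p.Prime := ⟨hp⟩
  have h0 : ((p : ℕ) : ResidueField R) = 0 := by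
    have h1 : residue R (p : R) = 0 := (residue_eq_zero_iff _).mpr hpR
    rwa [map_natCast] at h1
  haveI : CharP (ResidueField R) p := by
    obtain ⟨q, hq⟩ := CharP.exists (ResidueField R)
    have hdvd : q ∣ p := (CharP.cast_eq_zero_iff (ResidueField R) q p).mp h0
    rcases (Nat.dvd_prime hp).mp hdvd with h | h
    · exfalso
      subst h
      exact CharP.false_of_nontrivial_of_char_one (R := ResidueField R)
    · subst h
      exact hq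
  rw [← residue_eq_zero_iff]
  have h1 : (residue R (ζ - 1)) ^ p ^ m = 0 := by
    rw [map_sub, map_one, sub_pow_char_pow, one_pow, ← map_pow, hζ, map_one, sub_self]
  exact pow_eq_zero_iff (pow_ne_zero _ hp.ne_zero) |>.mp h1

/-- A type value lies in the maximal ideal. -/
theorem typeValue_mem_h995 (p : ℕ) (hp : p.Prime) (hp2 : p ≠ 2) (R : Type) [CommRing R]
    [IsLocalRing R] (hpR : (p : R) ∈ maximalIdeal R) (q : ℕ) (δ : R)
    (hδ : IsTypeValue p q δ) : δ ∈ maximalIdeal R := by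
  obtain ⟨ζ, -, ⟨m, hm⟩, -, hrel⟩ := hδ
  have h2 : IsUnit (2 : R) := isUnit_two_h995 p hp hp2 R hpR
  have hζu : IsUnit ζ := IsUnit.of_pow_eq_one hm (pow_ne_zero _ hp.ne_zero)
  have hζ1 : ζ - 1 ∈ maximalIdeal R := sub_one_mem_of_pow_eq_one_h995 p hp R hpR ζ m hm
  have h3 : 2 * δ * ζ ∈ maximalIdeal R := by
    rw [hrel]
    have : ζ ^ 2 - 1 = (ζ - 1) * (ζ + 1) := by ring
    rw [this]
    exact Ideal.mul_mem_right _ _ hζ1
  have h4 : 2 * δ * ζ = (2 * ζ) * δ := by ring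
  rw [h4] at h3
  rcases (maximalIdeal.isMaximal R).isPrime.mem_or_mem h3 with h | h
  · exact absurd h ((IsLocalRing.notMem_maximalIdeal).mpr (h2.mul hζu))
  · exact h

/-- A characteristic-zero domain over a discrete valuation ring of residue characteristic `p`
contains it. -/
theorem algebraMap_injective_of_charZero (p : ℕ) (hp : p.Prime)
    (𝒪 : Type) [CommRing 𝒪] [IsDomain 𝒪] [IsDiscreteValuationRing 𝒪]
    (hp𝒪 : (p : 𝒪) ∈ maximalIdeal 𝒪)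
    (D : Type) [CommRing D] [IsDomain D] [CharZero D] [Algebra 𝒪 D] :
    Function.Injective (algebraMap 𝒪 D) := by
  rw [injective_iff_map_eq_zero]
  intro a ha
  by_contra ha0
  obtain ⟨ϖ, hϖ⟩ := IsDiscreteValuationRing.exists_irreducible 𝒪
  obtain ⟨n, u, hu⟩ := IsDiscreteValuationRing.eq_unit_mul_pow_irreducible ha0 hϖ
  have h1 : algebraMap 𝒪 D (ϖ ^ n) = 0 := by
    have h2 : algebraMap 𝒪 D ((u : 𝒪) * ϖ ^ n) = 0 := by rw [← hu]; exact ha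
    rw [map_mul] at h2
    rcases mul_eq_zero.mp h2 with h3 | h3
    · exact absurd h3 ((u.isUnit.map (algebraMap 𝒪 D)).ne_zero)
    · exact h3
  have h2 : algebraMap 𝒪 D ϖ = 0 := by
    rw [map_pow] at h1
    exact pow_eq_zero_iff (fun hn0 => by
      rw [hn0, pow_zero] at h1
      exact one_ne_zero h1) |>.mp h1
  have h3 : (p : 𝒪) ∈ Ideal.span {ϖ} := by
    rw [← (IsDiscreteValuationRing.irreducible_iff_uniformizer ϖ).mp hϖ]
    exact hp𝒪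
  obtain ⟨c, hc⟩ := Ideal.mem_span_singleton'.mp h3
  have h4 : algebraMap 𝒪 D (p : 𝒪) = 0 := by
    rw [← hc, map_mul, h2, mul_zero]
  rw [map_natCast] at h4
  exact hp.ne_zero (Nat.cast_eq_zero.mp h4)

section Level

variable {p : ℕ} [hpF : Fact p.Prime]
  {𝒪 : Type} [CommRing 𝒪] [IsDomain 𝒪] [IsDiscreteValuationRing 𝒪]
  [IsAdicComplete (maximalIdeal 𝒪) 𝒪] [Finite (ResidueField 𝒪)] [CharZero 𝒪]
  {ρbar : ResidualGaloisRep (ResidueField 𝒪)} {Smin Piv : Finset ℕ}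

/-- **One level**: the Hecke module at one Taylor–Wiles set is a level of the engine over
`A = P ⧸ J`. -/
theorem exists_iaLevel (h54 : RToTStatement) (hB2 : IABridgeStatement)
    (h : ResidualHyp p 𝒪 ρbar Smin) (hPiv : IsPivotSet p ρbar Smin Piv)
    (lam : 𝒪) {d n r : ℕ} (g : ℕ) (qv : Fin r → ℕ)
    (hQ : IsTWSet p ρbar (Smin ∪ Piv) n qv)
    (hmod : HasIAModule p 𝒪 ρbar Smin Piv lam d n qv)
    (DQ : GaloisRep.DeformationRingData 𝒪 ρbar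
      (sigmaCond 𝒪 p .flat Smin (Smin ∪ Piv ∪ Finset.univ.image qv)))
    (bas : Module.Basis (Fin 2) DQ.R DQ.ρ.V)
    (Pv : Piv → ValuationSubring (AlgebraicClosure ℚ))
    (φv : Piv → (AlgebraicClosure ℚ ≃ₐ[ℚ] AlgebraicClosure ℚ))
    (γ : LocAmb 𝒪 Piv g →ₐ[𝒪] DQ.R) (hγ : Function.Surjective γ)
    (hPv : ∀ q : Piv, (Pv q).LiesOverPrime (q : ℕ) ∧ (Pv q).IsFrobeniusAt (φv q) (q : ℕ))
    (hw : ∀ q : Piv, IsTracelessCoords bas (DQ.ρ.ρ (φv q)) (fun j => γ (wVar 𝒪 g q j)))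
    (hdet : ∀ q : Piv, LinearMap.det (DQ.ρ.ρ (φv q)) = ((q : ℕ) : DQ.R))
    (htype : ∀ (𝒪' : Type) [CommRing 𝒪'] [IsDomain 𝒪'] [IsDiscreteValuationRing 𝒪']
        [CharZero 𝒪'] [Algebra 𝒪 𝒪'] (y : DQ.R →ₐ[𝒪] 𝒪')
        (hy : IsLocalHom (y : DQ.R →+* 𝒪')),
        (∀ q ∈ Piv,
          ¬ (DQ.ρ.baseChangeAlong (y : DQ.R →+* 𝒪') hy).IsUnipotentOnInertiaAt q) →
        ∃ δ : Piv → 𝒪, (∀ q : Piv, IsTypeValue p (q : ℕ) (δ q)) ∧
          ∀ a ∈ typeIdeal 𝒪 g δ, y (γ a) = 0)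
    (J : Ideal (LocAmb 𝒪 Piv g)) (hJtop : J ≠ ⊤)
    (hJ : ∀ δ : Piv → 𝒪, (∀ q : Piv, IsTypeValue p (q : ℕ) (δ q)) →
      ∀ (D : Type) [CommRing D] [IsDomain D] [IsLocalRing D] [Algebra 𝒪 D]
        (_hsep : ∀ x : D, (∀ n : ℕ, x ∈ maximalIdeal D ^ n) → x = 0)
        (_hinj : Function.Injective (algebraMap 𝒪 D))
        (y : LocAmb 𝒪 Piv g →ₐ[𝒪] D) (_hy : IsLocalHom (y : LocAmb 𝒪 Piv g →+* D)),
        typeIdeal 𝒪 g δ ≤ RingHom.ker (y : LocAmb 𝒪 Piv g →+* D) →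
          J ≤ RingHom.ker (y : LocAmb 𝒪 Piv g →+* D))
    (q₀ : Piv) [IsLocalRing (LocAmb 𝒪 Piv g ⧸ J)]
    (hA : IsProfiniteAdic (maximalIdeal (LocAmb 𝒪 Piv g ⧸ J))) :
    Nonempty (IALevel.{0, 0, 0} (MvPowerSeries (Fin r) 𝒪) (LocAmb 𝒪 Piv g ⧸ J)
      (twRelIdeal 𝒪 p n r) d (MvPowerSeries.C lam) (algebraMap 𝒪 (LocAmb 𝒪 Piv g ⧸ J) lam)
      (Ideal.Quotient.mk J (hElt 𝒪 g q₀ (q₀ : ℕ)))) := by
  classical
  have hp : p.Prime := hpF.out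
  obtain ⟨hNQ, PQ, MQ, instG, instM, w, b, hbasis, hwm, hsupp, hst⟩ := hmod
  haveI := hNQ
  -- the primes of `Σ_Q`
  have hSigP : ∀ q ∈ Smin ∪ Piv ∪ Finset.univ.image qv, q.Prime := by
    intro q hq
    rcases Finset.mem_union.mp hq with hq | hq
    · rcases Finset.mem_union.mp hq with hq | hq
      · exact h.hSmin q hq
      · exact (hPiv q hq).1
    · obtain ⟨i, -, rfl⟩ := Finset.mem_image.mp hq
      exact (hQ.2.1 i).1
  have hsub : Smin ⊆ Smin ∪ Piv ∪ Finset.univ.image qv :=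
    Finset.subset_union_left.trans Finset.subset_union_left
  -- `R_Q ↠ T_Q`
  obtain ⟨φQ, hφQs, hφQloc, hφQ⟩ := h54 DQ PQ.H
    (fun q hq hdvd => mem_of_prime_dvd_wilesLevel hp h.hSmin hSigP h.hpSmin hsub q hq hdvd)
    PQ.hcond PQ.hres
  let ψ : LocAmb 𝒪 Piv g →ₐ[𝒪] PQ.T := φQ.comp γ
  have hψs : Function.Surjective ψ := hφQs.comp hγ
  have hγloc : IsLocalHom (γ : LocAmb 𝒪 Piv g →+* DQ.R) := IsLocalHom.of_surjective _ hγ
  -- `J` kills `M_Q`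
  have hkill : ∀ j ∈ J, ∀ m : MQ, ψ j • m = 0 := by
    intro j hj
    refine hsupp (ψ j) ?_
    intro 𝒪' _ _ _ _ _ x hx hnu
    let y : DQ.R →ₐ[𝒪] 𝒪' := x.comp φQ
    have hy : IsLocalHom (y : DQ.R →+* 𝒪') := by
      haveI := hx
      haveI := hφQloc
      exact RingHom.isLocalHom_comp (x : PQ.T →+* 𝒪') (φQ : DQ.R →+* PQ.T)
    have hnu' : ∀ q ∈ Piv,
        ¬ (DQ.ρ.baseChangeAlong (y : DQ.R →+* 𝒪') hy).IsUnipotentOnInertiaAt q :=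
      fun q hq => not_unip_of_comp (φQ : DQ.R →+* PQ.T) hφQloc DQ.ρ PQ.H.ρ hφQ
        (x : PQ.T →+* 𝒪') hx (y : DQ.R →+* 𝒪') hy rfl (hnu q hq)
    obtain ⟨δ, hδ, hδker⟩ := htype 𝒪' y hy hnu'
    have hsep : ∀ z : 𝒪', (∀ n : ℕ, z ∈ maximalIdeal 𝒪' ^ n) → z = 0 := by
      intro z hz
      have h1 : z ∈ (⨅ n : ℕ, maximalIdeal 𝒪' ^ n : Ideal 𝒪') := by
        rw [Ideal.mem_iInf]
        exact hz
      rw [Ideal.iInf_pow_eq_bot_of_isLocalRing _ (maximalIdeal.isMaximal 𝒪').ne_top] at h1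
      exact h1
    have hinj : Function.Injective (algebraMap 𝒪 𝒪') :=
      algebraMap_injective_of_charZero p hp 𝒪 h.hp𝒪 𝒪'
    have hyγ : IsLocalHom ((y.comp γ : LocAmb 𝒪 Piv g →ₐ[𝒪] 𝒪') : LocAmb 𝒪 Piv g →+* 𝒪') := by
      haveI := hy
      haveI := hγloc
      exact RingHom.isLocalHom_comp (y : DQ.R →+* 𝒪') (γ : LocAmb 𝒪 Piv g →+* DQ.R)
    have h1 := hJ δ hδ 𝒪' hsep hinj (y.comp γ) hyγ (fun a ha => hδker a ha)
    exact h1 hj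
  -- the module structures
  letI instP : Module (LocAmb 𝒪 Piv g) MQ :=
    Module.compHom MQ (ψ : LocAmb 𝒪 Piv g →+* PQ.T)
  have hPsmul : ∀ (a : LocAmb 𝒪 Piv g) (m : MQ), a • m = ψ a • m := fun a m => rfl
  have htors : Module.IsTorsionBySet (LocAmb 𝒪 Piv g) MQ (J : Set (LocAmb 𝒪 Piv g)) := by
    intro m a
    rw [hPsmul]
    exact hkill a.1 a.2 m
  letI instA : Module (LocAmb 𝒪 Piv g ⧸ J) MQ := Module.IsTorsionBySet.module htors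
  have hAsmul : ∀ (a : LocAmb 𝒪 Piv g) (m : MQ), (Ideal.Quotient.mk J a) • m = ψ a • m :=
    fun a m => rfl
  have h𝒪 : ∀ c : 𝒪, SameAct (M := MQ) (algebraMap 𝒪 (LocAmb 𝒪 Piv g ⧸ J) c)
      (algebraMap 𝒪 PQ.T c) := by
    intro c m
    have h1 : algebraMap 𝒪 (LocAmb 𝒪 Piv g ⧸ J) c =
        Ideal.Quotient.mk J (algebraMap 𝒪 (LocAmb 𝒪 Piv g) c) := rfl
    rw [h1, hAsmul, AlgHom.commutes]
  -- lifts of the `w_i`
  have hmkloc : IsLocalHom (Ideal.Quotient.mk J) := isLocalHom_quotient_mk J hJtop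
  have hψloc : IsLocalHom (ψ : LocAmb 𝒪 Piv g →+* PQ.T) := IsLocalHom.of_surjective _ hψs
  have hω : ∀ i, ∃ ω : LocAmb 𝒪 Piv g ⧸ J, SameAct (M := MQ) ω (w i) ∧
      ω - 1 ∈ maximalIdeal (LocAmb 𝒪 Piv g ⧸ J) := by
    intro i
    obtain ⟨a, ha⟩ := hψs (w i)
    refine ⟨Ideal.Quotient.mk J a, fun m => ?_, ?_⟩
    · rw [hAsmul, ha]
    · have h1 : a - 1 ∈ maximalIdeal (LocAmb 𝒪 Piv g) := by
        rw [mem_maximalIdeal, mem_nonunits_iff]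
        intro hu
        have h2 : IsUnit (ψ (a - 1)) := hu.map ψ
        rw [map_sub, map_one, ha] at h2
        exact (hwm i) h2
      have h3 : Ideal.Quotient.mk J a - 1 = Ideal.Quotient.mk J (a - 1) := by
        rw [map_sub, map_one]
      rw [h3, mem_maximalIdeal, mem_nonunits_iff]
      intro hu
      exact h1 (hmkloc.map_nonunit _ hu)
  choose ω hωact hωm using hω
  have hbA : IsGroupRingBasis 𝒪 (p ^ n) ω b :=
    isGroupRingBasis_transport (T₁ := PQ.T) (T₂ := LocAmb 𝒪 Piv g ⧸ J) w ω b h𝒪 hωact hbasis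
  -- the Steinberg element
  have hs : ∀ m : MQ, ∃ m' : MQ,
      (AlgHom.id 𝒪 (LocAmb 𝒪 Piv g ⧸ J)) (Ideal.Quotient.mk J (hElt 𝒪 g q₀ (q₀ : ℕ))) • m =
        algebraMap 𝒪 (LocAmb 𝒪 Piv g ⧸ J) lam • m' := by
    intro m
    obtain ⟨hP1, hP2⟩ := hPv q₀
    obtain ⟨m', hm'⟩ := hst (q₀ : ℕ) q₀.2 (Pv q₀) hP1 (φv q₀) hP2 m
    refine ⟨m', ?_⟩
    rw [h𝒪 lam m', ← hm']
    show Ideal.Quotient.mk J (hElt 𝒪 g q₀ (q₀ : ℕ)) • m = _
    rw [hAsmul]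
    congr 1
    -- `ψ (hElt) = tr² - (1+q)²`
    have h1 := trace_sq_sub_eq_of_tracelessCoords bas (DQ.ρ.ρ (φv q₀))
      (fun j => γ (wVar 𝒪 g q₀ j)) (hw q₀) ((q₀ : ℕ) : DQ.R) (hdet q₀)
    have h2 : γ (hElt 𝒪 g q₀ (q₀ : ℕ)) =
        DQ.ρ.trace (φv q₀) ^ 2 - (1 + ((q₀ : ℕ) : DQ.R)) ^ 2 := by
      show _ = LinearMap.trace DQ.R DQ.ρ.V (DQ.ρ.ρ (φv q₀)) ^ 2 - _
      rw [h1, hElt, qW, map_sub, map_mul, map_add, map_pow, map_mul]
      have h3 : γ (4 : LocAmb 𝒪 Piv g) = 4 := map_ofNat γ 4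
      have h4 : γ (MvPowerSeries.C ((((q₀ : ℕ) : 𝒪) - 1) ^ 2)) =
          (((q₀ : ℕ) : DQ.R) - 1) ^ 2 := by
        have : (MvPowerSeries.C ((((q₀ : ℕ) : 𝒪) - 1) ^ 2) : LocAmb 𝒪 Piv g) =
            algebraMap 𝒪 (LocAmb 𝒪 Piv g) ((((q₀ : ℕ) : 𝒪) - 1) ^ 2) := rfl
        rw [this, AlgHom.commutes, map_pow, map_sub, map_one, map_natCast]
      rw [h3, h4]
    show φQ (γ (hElt 𝒪 g q₀ (q₀ : ℕ))) = _
    rw [h2, map_sub, map_pow, map_pow, map_add, map_one, map_natCast,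
      trace_map_eq (φQ : DQ.R →+* PQ.T) hφQloc DQ.ρ PQ.H.ρ hφQ (φv q₀)]
    push_cast
    ring
  exact hB2 p 𝒪 h.hp𝒪 (LocAmb 𝒪 Piv g ⧸ J) hA (LocAmb 𝒪 Piv g ⧸ J)
    (AlgHom.id 𝒪 (LocAmb 𝒪 Piv g ⧸ J)) MQ n r d ω b hbA
    (fun i => ⟨ω i, rfl, hωm i⟩) lam (Ideal.Quotient.mk J (hElt 𝒪 g q₀ (q₀ : ℕ))) hs

end Level

/-- **THE ASSEMBLY of row HARD, at one `(p, 𝒪, ρ̄, Smin, Piv)`**: level lowering at a pivot
from the frozen leaves and the Hecke side AT THESE DATA. -/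
theorem iaCore_at (h53 : DefRingExistsStatement) (hcond : SigmaCondStatement)
    (h54 : RToTStatement) (hB1 : IABridgeIdealStatement) (hB2 : IABridgeStatement)
    (hB3 : IABridgeBaseStatement) (hComp : IALocCompStatement) (hDim : IALocDimStatement)
    (hGal : IAGalStatement)
    (p : ℕ) [hpF : Fact p.Prime]
    (𝒪 : Type) [CommRing 𝒪] [IsDomain 𝒪] [IsDiscreteValuationRing 𝒪]
    [IsAdicComplete (maximalIdeal 𝒪) 𝒪] [Finite (ResidueField 𝒪)] [CharZero 𝒪]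
    (ρbar : ResidualGaloisRep (ResidueField 𝒪)) (Smin : Finset ℕ)
    (h : ResidualHyp p 𝒪 ρbar Smin)
    (hflat : (GaloisRepAdic.ofResidualGaloisRep ρbar).IsFlatAt p)
    (Piv : Finset ℕ) (hPiv : IsPivotSet p ρbar Smin Piv) (hne : Piv.Nonempty)
    (hroots : ∀ q ∈ Piv, ∀ m : ℕ, p ^ m ∣ q - 1 → ∃ ζ : 𝒪, IsPrimitiveRoot ζ (p ^ m))
    (hHeckeAt : ∀ ζ : 𝒪, IsPrimitiveRoot ζ p →
      (∀ q ∈ Piv, ∀ S : Finset ℕ, ¬ ResModular 𝒪 ρbar (ribetLevel p Smin (Piv.erase q)) S) →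
      ∃ d : ℕ, 0 < d ∧ ∀ (n r : ℕ) (qv : Fin r → ℕ), IsTWSet p ρbar (Smin ∪ Piv) n qv →
        HasIAModule p 𝒪 ρbar Smin Piv (ζ - 1) d n qv) :
    ∃ q ∈ Piv, ∃ S : Finset ℕ, ResModular 𝒪 ρbar (ribetLevel p Smin (Piv.erase q)) S := by
  classical
  by_contra hcon
  have hmin : ∀ q ∈ Piv, ∀ S : Finset ℕ,
      ¬ ResModular 𝒪 ρbar (ribetLevel p Smin (Piv.erase q)) S :=
    fun q hq S hS => hcon ⟨q, hq, S, hS⟩
  have hp : p.Prime := hpF.out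
  obtain ⟨q₀n, hq₀⟩ := hne
  let q₀ : Piv := ⟨q₀n, hq₀⟩
  have hPivLoc : ∀ q ∈ Piv, q.Prime ∧ p ∣ q - 1 :=
    fun q hq => ⟨(hPiv q hq).1, (hPiv q hq).2.2.1⟩
  -- the root of unity
  obtain ⟨ζ, hζ⟩ := hroots q₀n hq₀ 1 (by rw [pow_one]; exact (hPivLoc q₀n hq₀).2)
  rw [pow_one] at hζ
  have hlam0 : ζ - 1 ≠ 0 := sub_ne_zero.mpr (hζ.ne_one hp.one_lt)
  have hlamm : ζ - 1 ∈ maximalIdeal 𝒪 :=
    sub_one_mem_of_pow_eq_one_h995 p hp 𝒪 h.hp𝒪 ζ 1 (by rw [pow_one]; exact hζ.pow_eq_one)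
  have h2u : IsUnit (2 : 𝒪) := isUnit_two_h995 p hp h.hp2 𝒪 h.hp𝒪
  -- the two sides
  obtain ⟨d, hd, hH⟩ := hHeckeAt ζ hζ hmin
  obtain ⟨r, hr, hG⟩ := hGal p 𝒪 ρbar Smin h hflat Piv hPiv hroots
  -- the type vectors
  haveI hιfin : Finite {δ : Piv → 𝒪 // ∀ q : Piv, IsTypeValue p (q : ℕ) (δ q)} :=
    finite_typeVectors p Piv (fun q hq => (hPivLoc q hq).1.one_lt) h2u.ne_zero
  obtain ⟨δ₀, hδ₀⟩ := exists_typeValue p hp ζ hζ h2u
  have hιne : Nonempty {δ : Piv → 𝒪 // ∀ q : Piv, IsTypeValue p (q : ℕ) (δ q)} :=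
    ⟨⟨fun _ => δ₀, fun q => hδ₀ (q : ℕ) (hPivLoc q q.2).2⟩⟩
  -- the components
  have hC := fun i : {δ : Piv → 𝒪 // ∀ q : Piv, IsTypeValue p (q : ℕ) (δ q)} =>
    hComp p h.hp2 𝒪 h.hp𝒪 Piv hPivLoc (r - 3 * Piv.card) i.1 i.2
  choose 𝔓 h𝔓prime h𝔓le h𝔓fac using hC
  let J : Ideal (LocAmb 𝒪 Piv (r - 3 * Piv.card)) := ⨅ i, 𝔓 i
  have hJle : ∀ i, J ≤ 𝔓 i := fun i => iInf_le _ i
  have hJtop : J ≠ ⊤ := by
    intro hJ
    obtain ⟨i⟩ := hιne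
    exact (h𝔓prime i).ne_top (top_le_iff.mp (hJ ▸ hJle i))
  haveI : IsLocalRing (LocAmb 𝒪 Piv (r - 3 * Piv.card) ⧸ J) := isLocalRing_quotient J hJtop
  have hA : IsProfiniteAdic (maximalIdeal (LocAmb 𝒪 Piv (r - 3 * Piv.card) ⧸ J)) :=
    isProfiniteAdic_mvPowerSeries_quotient J
  -- the base ring `S`
  obtain ⟨hS, hSdim⟩ := hB3 𝒪 r
  have hfin : ringKrullDim (MvPowerSeries (Fin r) 𝒪) < ⊤ := by
    rw [hSdim]
    have h1 : (((r + 1 : ℕ)) : WithBot ℕ∞) = (((r + 1 : ℕ) : ℕ∞) : WithBot ℕ∞) := rfl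
    rw [h1]
    exact WithBot.coe_lt_coe.2 (ENat.natCast_lt_top (r + 1))
  haveI : IsDomain (MvPowerSeries (Fin r) 𝒪) := NoZeroDivisors.to_isDomain _
  have hClam : (MvPowerSeries.C (ζ - 1) : MvPowerSeries (Fin r) 𝒪) ≠ 0 := by
    intro h0
    apply hlam0
    have := congrArg (MvPowerSeries.constantCoeff (σ := Fin r) (R := 𝒪)) h0
    simpa using this
  -- the levels
  have hL : ∀ n : ℕ, Nonempty (IALevel.{0, 0, 0} (MvPowerSeries (Fin r) 𝒪)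
      (LocAmb 𝒪 Piv (r - 3 * Piv.card) ⧸ J) (twRelIdeal 𝒪 p n r) d (MvPowerSeries.C (ζ - 1))
      (algebraMap 𝒪 (LocAmb 𝒪 Piv (r - 3 * Piv.card) ⧸ J) (ζ - 1))
      (Ideal.Quotient.mk J (hElt 𝒪 (r - 3 * Piv.card) q₀ (q₀ : ℕ)))) := by
    intro n
    obtain ⟨qv, hQ, hDQ⟩ := hG n
    have hc := hcond p h.hp2 𝒪 h.hp𝒪 .flat Smin (Smin ∪ Piv ∪ Finset.univ.image qv)
    have hsub : Smin ⊆ Smin ∪ Piv ∪ Finset.univ.image qv :=
      Finset.subset_union_left.trans Finset.subset_union_left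
    have hbar : sigmaCond 𝒪 p .flat Smin (Smin ∪ Piv ∪ Finset.univ.image qv)
        (GaloisRepAdic.ofResidualGaloisRep ρbar) := by
      refine ⟨⟨h.hdet, hflat, ?_⟩, h.hunip⟩
      intro q hq hqS
      have hqp : q ≠ p := fun e => hqS (hsub (e ▸ h.hpSmin))
      have hqSmin : q ∉ Smin := fun hh => hqS (hsub hh)
      have h1 : ρbar.IsUnramifiedAt q := by
        by_contra hn
        exact hqSmin ((h.hmin q hq hqp).mpr hn)
      exact h1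
    obtain ⟨DQ⟩ := h53 𝒪 ρbar (sigmaCond 𝒪 p .flat Smin (Smin ∪ Piv ∪ Finset.univ.image qv))
      h.habs hc.1 hbar (hc.2 ρbar)
    obtain ⟨bas, Pv, φv, σv, γ, hγ, hPv, hv, hw, hdet, htype⟩ := hDQ DQ
    refine exists_iaLevel h54 hB2 h hPiv (ζ - 1) (r - 3 * Piv.card) qv hQ (hH n r qv hQ) DQ bas
      Pv φv γ hγ (fun q => ⟨(hPv q).1, (hPv q).2.1⟩) hw hdet htype J hJtop ?_ q₀ hA
    intro δ hδ D _ _ _ _ hsep hinj y hy hker
    exact (hJle ⟨δ, hδ⟩).trans (h𝔓fac ⟨δ, hδ⟩ D hsep hinj y hy hker)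
  -- the components of `A`
  let 𝔓A : {δ : Piv → 𝒪 // ∀ q : Piv, IsTypeValue p (q : ℕ) (δ q)} →
      Ideal (LocAmb 𝒪 Piv (r - 3 * Piv.card) ⧸ J) := fun i => (𝔓 i).map (Ideal.Quotient.mk J)
  have h𝔓A : ∀ i, (𝔓A i).IsPrime := fun i => isPrime_map_mk_of_le J (𝔓 i) (h𝔓prime i) (hJle i)
  have hcov : ∀ Q : Ideal (LocAmb 𝒪 Piv (r - 3 * Piv.card) ⧸ J), Q.IsPrime →
      algebraMap 𝒪 (LocAmb 𝒪 Piv (r - 3 * Piv.card) ⧸ J) (ζ - 1) ∉ Q → ∃ i, 𝔓A i ≤ Q := by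
    intro Q hQ _
    have h1 : (⨅ i, 𝔓 i) ≤ Q.comap (Ideal.Quotient.mk J) := by
      intro a ha
      rw [Ideal.mem_comap, Ideal.Quotient.eq_zero_iff_mem.mpr ha]
      exact Q.zero_mem
    obtain ⟨i, hi⟩ := exists_le_of_iInf_le 𝔓 (Ideal.comap_isPrime _ Q) h1
    exact ⟨i, Ideal.map_le_iff_le_comap.mpr hi⟩
  have hdim : ∀ i, ringKrullDim ((LocAmb 𝒪 Piv (r - 3 * Piv.card) ⧸ J) ⧸ 𝔓A i) ≤
      ringKrullDim (MvPowerSeries (Fin r) 𝒪) := by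
    intro i
    refine (ringKrullDim_quotient_map_le J (typeIdeal 𝒪 (r - 3 * Piv.card) i.1) (𝔓 i)
      (h𝔓le i)).trans ?_
    refine (hDim p h.hp2 𝒪 h.hp𝒪 Piv hPivLoc (r - 3 * Piv.card) i.1 i.2).trans ?_
    rw [hSdim]
    have : 1 + 3 * Piv.card + (r - 3 * Piv.card) = r + 1 := by omega
    rw [this]
  -- the points
  have hpt : ∀ i, ∃ (V : Type) (_ : CommRing V) (_ : IsDomain V) (_ : ValuationRing V)
      (x : (LocAmb 𝒪 Piv (r - 3 * Piv.card) ⧸ J) →+* V), 𝔓A i ≤ RingHom.ker x ∧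
        ¬ x (algebraMap 𝒪 (LocAmb 𝒪 Piv (r - 3 * Piv.card) ⧸ J) (ζ - 1)) ∣
          x (Ideal.Quotient.mk J (hElt 𝒪 (r - 3 * Piv.card) q₀ (q₀ : ℕ))) := by
    intro i
    obtain ⟨V, iV1, iV2, iV3, x, hx1, hx2⟩ := exists_point_of_factor p h.hp2 𝒪 h.hp𝒪 Piv hPivLoc
      (r - 3 * Piv.card) i.1
      (fun q => typeValue_mem_h995 p hp h.hp2 𝒪 h.hp𝒪 (q : ℕ) (i.1 q) (i.2 q)) q₀ (ζ - 1) hlamm
      (𝔓 i) (h𝔓fac i)
    have hJx : ∀ a ∈ J, x a = 0 := fun a ha => hx1 (hJle i ha)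
    refine ⟨V, iV1, iV2, iV3, Ideal.Quotient.lift J x hJx, ?_, ?_⟩
    · rw [Ideal.map_le_iff_le_comap]
      intro a ha
      rw [Ideal.mem_comap, RingHom.mem_ker, Ideal.Quotient.lift_mk]
      exact hx1 ha
    · have h1 : algebraMap 𝒪 (LocAmb 𝒪 Piv (r - 3 * Piv.card) ⧸ J) (ζ - 1) =
          Ideal.Quotient.mk J (MvPowerSeries.C (ζ - 1)) := rfl
      rw [h1, Ideal.Quotient.lift_mk, Ideal.Quotient.lift_mk]
      exact hx2
  exact ia_multi_false_of_ialevels hS hA hfin hd (MvPowerSeries.C (ζ - 1)) hClam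
    (algebraMap 𝒪 (LocAmb 𝒪 Piv (r - 3 * Piv.card) ⧸ J) (ζ - 1))
    (Ideal.Quotient.mk J (hElt 𝒪 (r - 3 * Piv.card) q₀ (q₀ : ℕ))) 𝔓A h𝔓A hcov hdim
    (fun n => twRelIdeal 𝒪 p n r) (fun n => hB1 p 𝒪 h.hp𝒪 n r)
    (fun n => Classical.choice (hL n)) hpt

/-- **THE ASSEMBLY of row HARD**: level lowering at a pivot from the frozen leaves. -/
theorem iaCore_of_leaves (h53 : DefRingExistsStatement) (hcond : SigmaCondStatement)
    (h54 : RToTStatement) (hB1 : IABridgeIdealStatement) (hB2 : IABridgeStatement)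
    (hB3 : IABridgeBaseStatement) (hComp : IALocCompStatement) (hDim : IALocDimStatement)
    (hGal : IAGalStatement) (hHecke : IAHeckeStatement) : IACoreStatement := by
  intro p hpF 𝒪 _ _ _ _ _ _ ρbar Smin h hflat Piv hPiv hne hroots hmod
  exact iaCore_at h53 hcond h54 hB1 hB2 hB3 hComp hDim hGal p 𝒪 ρbar Smin h hflat Piv hPiv hne
    hroots (fun ζ hζ hmin => hHecke p 𝒪 ρbar Smin h hflat ζ hζ Piv hPiv hmod hmin)

end Fermat.Agent.S38.IA
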