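import Mathlib
import Fermat.Agent.S38.H901.IALevel

/-!
# Row HARD (row 37): single-sided Ihara avoidance, MULTI-COMPONENT form   (helper995)

`helper901`'s core (`S38/H901/IASingle.lean`, `IAPatch.lean`, `IALevel.lean`) assumes ONE
characteristic-zero component `P₀` of the patched ring `A`.  With the type input in the weak form
(NU) ("not unipotent at the pivot": the inertial type is `ψ ⊕ ψ⁻¹` for SOME `ψ ≠ 1` of `p`-power
order) the ring `A` has several characteristic-zero components `𝔓 i` (one for every choice of the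
types at the pivots).  This file proves the same statements for a family `𝔓 : ι → Ideal A` of
primes such that every prime of `A` not containing `lamA` contains some `𝔓 i`:

* `exists_annihilator_le_of_dim_le` : the support lemma, `∃ i, Ann_R M ≤ 𝔓 i`;
* `ia_multi_false`, `ia_multi_pow_mem` : the contradiction for a patched module;
* `ia_multi_patched_false`, `ia_multi_levels_false`, `ia_multi_false_of_ialevels` : the same from
  a patched object in coordinates / levels in coordinates / module-theoretic levels `H901.IALevel`.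

Mathlib + `H901` only.
-/

set_option autoImplicit false
set_option linter.unnecessarySimpa false
set_option linter.style.haveILetI false
set_option linter.unusedSectionVars false

namespace Fermat.Agent.S38.IA

open IsLocalRing Fermat.Agent.S59.Patch.H967 Fermat.Agent.S38.H901 Polynomial

/-- A prime of `R` over `0 ⊂ S` containing the annihilator of `M`, with `dim S ≤ dim R/P`. -/
theorem exists_prime_over_bot_ge_annihilator {S R M : Type*} [CommRing S] [IsDomain S]
    [CommRing R] [Algebra S R] [AddCommGroup M] [Module S M] [Module R M] [IsScalarTower S R M]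
    [Module.Finite S M] (hfaith : ∀ a : S, (∀ m : M, a • m = 0) → a = 0) :
    ∃ P : Ideal R, P.IsPrime ∧ Module.annihilator R M ≤ P ∧ P.comap (algebraMap S R) = ⊥ ∧
      ringKrullDim S ≤ ringKrullDim (R ⧸ P) := by
  classical
  set I := Module.annihilator R M with hI
  haveI hint : Algebra.IsIntegral S (R ⧸ I) := by
    refine ⟨fun t => ?_⟩
    obtain ⟨r, rfl⟩ := Ideal.Quotient.mk_surjective t
    obtain ⟨p, hmon, hp⟩ := exists_monic_aeval_mem_annihilator (S := S) (M := M) r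
    refine ⟨p, hmon, ?_⟩
    have h1 : Polynomial.eval₂ (algebraMap S (R ⧸ I)) (Ideal.Quotient.mk I r) p =
        Ideal.Quotient.mk I (aeval r p) := by
      rw [Polynomial.aeval_def, Polynomial.hom_eval₂]
      rfl
    rw [h1]
    exact Ideal.Quotient.eq_zero_iff_mem.mpr hp
  have hinj : Function.Injective (algebraMap S (R ⧸ I)) := by
    rw [injective_iff_map_eq_zero]
    intro a ha
    apply hfaith
    intro m
    have h2 : algebraMap S R a ∈ I := by
      have : algebraMap S (R ⧸ I) a = Ideal.Quotient.mk I (algebraMap S R a) := rfl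
      rw [this] at ha
      exact Ideal.Quotient.eq_zero_iff_mem.mp ha
    have h3 := (Module.mem_annihilator.mp h2) m
    rwa [algebraMap_smul] at h3
  have hker : (⊥ : Ideal (R ⧸ I)).comap (algebraMap S (R ⧸ I)) ≤ (⊥ : Ideal S) := by
    rw [← RingHom.ker_eq_comap_bot, (RingHom.injective_iff_ker_eq_bot _).mp hinj]
  obtain ⟨Q, -, hQ, hQc⟩ :=
    Ideal.exists_ideal_over_prime_of_isIntegral (⊥ : Ideal S) (⊥ : Ideal (R ⧸ I)) hker
  haveI := hQ
  set P : Ideal R := Q.comap (Ideal.Quotient.mk I) with hPdef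
  haveI hPprime : P.IsPrime := Ideal.comap_isPrime _ _
  have hIP : I ≤ P := by
    intro a ha
    rw [hPdef, Ideal.mem_comap, Ideal.Quotient.eq_zero_iff_mem.mpr ha]
    exact Q.zero_mem
  have hPS : P.comap (algebraMap S R) = ⊥ := by
    rw [hPdef, Ideal.comap_comap]
    exact hQc
  haveI hint' : Algebra.IsIntegral S (R ⧸ P) := by
    refine ⟨fun t => ?_⟩
    obtain ⟨r, rfl⟩ := Ideal.Quotient.mk_surjective t
    obtain ⟨p, hmon, hp⟩ := exists_monic_aeval_mem_annihilator (S := S) (M := M) r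
    refine ⟨p, hmon, ?_⟩
    have h1 : Polynomial.eval₂ (algebraMap S (R ⧸ P)) (Ideal.Quotient.mk P r) p =
        Ideal.Quotient.mk P (aeval r p) := by
      rw [Polynomial.aeval_def, Polynomial.hom_eval₂]
      rfl
    rw [h1]
    exact Ideal.Quotient.eq_zero_iff_mem.mpr (hIP hp)
  have hinj' : Function.Injective (algebraMap S (R ⧸ P)) := by
    rw [injective_iff_map_eq_zero]
    intro a ha
    have h2 : algebraMap S R a ∈ P := by
      have : algebraMap S (R ⧸ P) a = Ideal.Quotient.mk P (algebraMap S R a) := rfl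
      rw [this] at ha
      exact Ideal.Quotient.eq_zero_iff_mem.mp ha
    have h3 : a ∈ P.comap (algebraMap S R) := h2
    rw [hPS] at h3
    exact h3
  exact ⟨P, hPprime, hIP, hPS, ringKrullDim_le_of_isIntegral_of_injective hinj'⟩

/-- **Support lemma, multi-component form.**  `S` a domain of finite Krull dimension, `M` an
`S`-finite module on which `S` acts faithfully, with a compatible `R`-action; `𝔓 i` primes of `R`
such that every prime of `R` lying over `0` of `S` contains one of them, `dim R/𝔓 i ≤ dim S`.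
Then `Ann_R M ≤ 𝔓 i` for some `i`. -/
theorem exists_annihilator_le_of_dim_le {S R M : Type*} {ι : Type*} [CommRing S] [IsDomain S]
    [CommRing R] [Algebra S R] [AddCommGroup M] [Module S M] [Module R M] [IsScalarTower S R M]
    [Module.Finite S M] (hfaith : ∀ a : S, (∀ m : M, a • m = 0) → a = 0)
    (𝔓 : ι → Ideal R) (h𝔓 : ∀ i, (𝔓 i).IsPrime)
    (hcov : ∀ P : Ideal R, P.IsPrime → P.comap (algebraMap S R) = ⊥ → ∃ i, 𝔓 i ≤ P)
    (hdim : ∀ i, ringKrullDim (R ⧸ 𝔓 i) ≤ ringKrullDim S) (hfin : ringKrullDim S < ⊤) :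
    ∃ i, Module.annihilator R M ≤ 𝔓 i := by
  classical
  obtain ⟨P, hPprime, hIP, hPS, hd1⟩ :=
    exists_prime_over_bot_ge_annihilator (S := S) (R := R) (M := M) hfaith
  obtain ⟨i, hi⟩ := hcov P hPprime hPS
  refine ⟨i, ?_⟩
  haveI := h𝔓 i
  by_contra hcon
  have hne : 𝔓 i ≠ P := by
    intro h
    exact hcon (h ▸ hIP)
  obtain ⟨a, haP, haP₀⟩ : ∃ a, a ∈ P ∧ a ∉ 𝔓 i := by
    by_contra h
    push Not at h
    exact hne (le_antisymm hi (fun a ha => h a ha))
  have hd2 : ringKrullDim (R ⧸ P) + 1 ≤ ringKrullDim (R ⧸ 𝔓 i) := by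
    refine ringKrullDim_succ_le_of_surjective (Ideal.Quotient.factor hi)
      (Ideal.Quotient.factor_surjective hi) (r := Ideal.Quotient.mk (𝔓 i) a) ?_ ?_
    · apply mem_nonZeroDivisors_of_ne_zero
      intro h0
      exact haP₀ (Ideal.Quotient.eq_zero_iff_mem.mp h0)
    · rw [Ideal.Quotient.factor_mk]
      exact Ideal.Quotient.eq_zero_iff_mem.mpr haP
  have hd3 : ringKrullDim S + 1 ≤ ringKrullDim S :=
    le_trans (le_trans (by gcongr) hd2) (hdim i)
  have hbot : ringKrullDim S ≠ ⊥ := by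
    intro h
    have h0 : (0 : WithBot ℕ∞) ≤ ringKrullDim S := ringKrullDim_nonneg_of_nontrivial
    rw [h] at h0
    exact absurd h0 (by simp)
  obtain ⟨n, hn⟩ : ∃ n : ℕ, ringKrullDim S = n := by
    cases h : ringKrullDim S with
    | bot => exact absurd h hbot
    | coe c =>
      cases hc : c with
      | top => rw [h, hc] at hfin; exact absurd hfin (lt_irrefl _)
      | coe n => exact ⟨n, rfl⟩
  rw [hn] at hd3
  have : ((n + 1 : ℕ) : WithBot ℕ∞) ≤ (n : ℕ) := by
    simpa using hd3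
  have h5 : n + 1 ≤ n := by exact_mod_cast this
  omega

/-- **Single-sided Ihara avoidance, multi-component core, ideal form**: a power of `s` lies in
`(lam) + 𝔓 i` for some `i`. -/
theorem ia_multi_pow_mem {S R M : Type*} {ι : Type*} [CommRing S] [IsDomain S] [CommRing R]
    [Algebra S R] [AddCommGroup M] [Module S M] [Module R M] [IsScalarTower S R M]
    [Module.Finite S M] (hfaith : ∀ a : S, (∀ m : M, a • m = 0) → a = 0)
    (𝔓 : ι → Ideal R) (h𝔓 : ∀ i, (𝔓 i).IsPrime)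
    (hcov : ∀ P : Ideal R, P.IsPrime → P.comap (algebraMap S R) = ⊥ → ∃ i, 𝔓 i ≤ P)
    (hdim : ∀ i, ringKrullDim (R ⧸ 𝔓 i) ≤ ringKrullDim S) (hfin : ringKrullDim S < ⊤)
    (lam s : R) (hs : ∀ m : M, ∃ m' : M, s • m = lam • m') :
    ∃ i, ∃ n : ℕ, s ^ n ∈ Ideal.span {lam} ⊔ 𝔓 i := by
  haveI : Module.Finite R M := Module.Finite.of_restrictScalars_finite S R M
  obtain ⟨i, hi⟩ := exists_annihilator_le_of_dim_le (M := M) hfaith 𝔓 h𝔓 hcov hdim hfin
  obtain ⟨n, hn⟩ := exists_pow_mem_sup_annihilator (M := M) lam s hs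
  exact ⟨i, n, (sup_le_sup_left hi _) hn⟩

/-- **Single-sided Ihara avoidance, multi-component core, point form**: if every component
carries a point `x i : R → V i` (valuation ring) with `x i lam ∤ x i s`, contradiction. -/
theorem ia_multi_false {S R M : Type*} {ι : Type*} [CommRing S] [IsDomain S] [CommRing R]
    [Algebra S R] [AddCommGroup M] [Module S M] [Module R M] [IsScalarTower S R M]
    [Module.Finite S M] (hfaith : ∀ a : S, (∀ m : M, a • m = 0) → a = 0)
    (𝔓 : ι → Ideal R) (h𝔓 : ∀ i, (𝔓 i).IsPrime)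
    (hcov : ∀ P : Ideal R, P.IsPrime → P.comap (algebraMap S R) = ⊥ → ∃ i, 𝔓 i ≤ P)
    (hdim : ∀ i, ringKrullDim (R ⧸ 𝔓 i) ≤ ringKrullDim S) (hfin : ringKrullDim S < ⊤)
    (lam s : R) (hs : ∀ m : M, ∃ m' : M, s • m = lam • m')
    (hpt : ∀ i, ∃ (V : Type) (_ : CommRing V) (_ : IsDomain V) (_ : ValuationRing V)
      (x : R →+* V), 𝔓 i ≤ RingHom.ker x ∧ ¬ x lam ∣ x s) : False := by
  haveI : Module.Finite R M := Module.Finite.of_restrictScalars_finite S R M
  obtain ⟨i, hi⟩ := exists_annihilator_le_of_dim_le (M := M) hfaith 𝔓 h𝔓 hcov hdim hfin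
  obtain ⟨V, _, _, _, x, hx₀, hx⟩ := hpt i
  exact hx (map_dvd_of_smul_le lam s hs x (hi.trans hx₀))

section Coord

variable {S A : Type*} [CommRing S] [IsDomain S] [CommRing A] {ι : Type*}

/-- The module structure on `S^d` attached to a patched object in coordinates, and the
hypotheses of the core. -/
theorem ia_multi_patched_core (hfin : ringKrullDim S < ⊤) {d : ℕ} (hd : 0 < d)
    (lamS : S) (hlamS : lamS ≠ 0) (lamA s : A)
    (𝔓 : ι → Ideal A) (h𝔓 : ∀ i, (𝔓 i).IsPrime)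
    (hcov : ∀ P : Ideal A, P.IsPrime → lamA ∉ P → ∃ i, 𝔓 i ≤ P)
    (hdim : ∀ i, ringKrullDim (A ⧸ 𝔓 i) ≤ ringKrullDim S)
    (Φ : S →+* A) (P : A →+* Matrix (Fin d) (Fin d) S)
    (h1 : Φ lamS = lamA) (h2 : ∀ f, P (Φ f) = Matrix.scalar (Fin d) f)
    (B : Matrix (Fin d) (Fin d) S) (hB : P s = lamS • B) :
    ∃ i, ∃ n : ℕ, s ^ n ∈ Ideal.span {lamA} ⊔ 𝔓 i := by
  classical
  letI : Algebra S A := Φ.toAlgebra
  have halg : ∀ f : S, algebraMap S A f = Φ f := fun f => rfl
  let P' : A →+* Module.End S (Fin d → S) :=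
    ((Matrix.toLinAlgEquiv' : Matrix (Fin d) (Fin d) S ≃ₐ[S] _).toAlgHom.toRingHom).comp P
  letI : Module A (Fin d → S) := Module.compHom (Fin d → S) P'
  have hsmul : ∀ (a : A) (m : Fin d → S), a • m = (P a).mulVec m := by
    intro a m
    show (P' a) m = _
    simp [P', Matrix.toLinAlgEquiv'_apply]
  haveI : IsScalarTower S A (Fin d → S) := by
    refine ⟨fun f a m => ?_⟩
    rw [hsmul, hsmul, Algebra.smul_def, halg, map_mul, h2, ← Matrix.mulVec_mulVec]
    ext i
    simp [Matrix.mulVec, dotProduct, Matrix.scalar_apply, Matrix.diagonal_apply,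
      Finset.sum_ite_eq]
  have hfaith : ∀ a : S, (∀ m : Fin d → S, a • m = 0) → a = 0 := by
    intro a ha
    have := congrFun (ha (fun _ => 1)) ⟨0, hd⟩
    simpa using this
  have hcov' : ∀ Q : Ideal A, Q.IsPrime → Q.comap (algebraMap S A) = ⊥ → ∃ i, 𝔓 i ≤ Q := by
    intro Q hQ hQS
    apply hcov Q hQ
    intro hmem
    apply hlamS
    have : lamS ∈ Q.comap (algebraMap S A) := by
      rw [Ideal.mem_comap, halg, h1]
      exact hmem
    rw [hQS] at this
    exact this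
  have hs' : ∀ m : Fin d → S, ∃ m' : Fin d → S, s • m = lamA • m' := by
    intro m
    refine ⟨B.mulVec m, ?_⟩
    rw [hsmul, hsmul, hB, ← h1, h2, Matrix.smul_mulVec]
    ext i
    simp [Matrix.mulVec, dotProduct, Matrix.scalar_apply, Matrix.diagonal_apply,
      Finset.sum_ite_eq]
  exact ia_multi_pow_mem (S := S) (R := A) (M := Fin d → S) hfaith 𝔓 h𝔓 hcov' hdim hfin
    lamA s hs'

/-- **Multi-component Ihara avoidance from levels in coordinates**, ideal form. -/
theorem ia_multi_levels_pow_mem [IsLocalRing A] {I : Ideal S} (hS : IsProfiniteAdic I)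
    (hA : IsProfiniteAdic (maximalIdeal A)) (hfin : ringKrullDim S < ⊤) {d : ℕ} (hd : 0 < d)
    (lamS : S) (hlamS : lamS ≠ 0) (lamA s : A)
    (𝔓 : ι → Ideal A) (h𝔓 : ∀ i, (𝔓 i).IsPrime)
    (hcov : ∀ P : Ideal A, P.IsPrime → lamA ∉ P → ∃ i, 𝔓 i ≤ P)
    (hdim : ∀ i, ringKrullDim (A ⧸ 𝔓 i) ≤ ringKrullDim S)
    (φ : ℕ → S →+* A) (ρ : ∀ n, A →+* Matrix (Fin d) (Fin d) (S ⧸ I ^ n))
    (hlam : ∀ n, φ n lamS = lamA)
    (hscal : ∀ n f, ρ n (φ n f) = Matrix.scalar (Fin d) (Ideal.Quotient.mk (I ^ n) f))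
    (hs : ∀ n, ∃ B : Matrix (Fin d) (Fin d) (S ⧸ I ^ n),
      ρ n s = Ideal.Quotient.mk (I ^ n) lamS • B) :
    ∃ i, ∃ n : ℕ, s ^ n ∈ Ideal.span {lamA} ⊔ 𝔓 i := by
  obtain ⟨Φ, P, h1, h2, B, hB⟩ := exists_patched hS hA lamS lamA s φ ρ hlam hscal hs
  exact ia_multi_patched_core hfin hd lamS hlamS lamA s 𝔓 h𝔓 hcov hdim Φ P h1 h2 B hB

end Coord

/-- **Multi-component Ihara avoidance from module-theoretic levels** (`H901.IALevel`), ideal
form: a power of `s` lies in `(lamA) + 𝔓 i` for some `i`. -/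
theorem ia_multi_pow_mem_of_ialevels {S A : Type*} {ι : Type*} [CommRing S]
    [IsDomain S] [CommRing A] [IsLocalRing A] {I : Ideal S} (hS : IsProfiniteAdic I)
    (hA : IsProfiniteAdic (maximalIdeal A)) (hfin : ringKrullDim S < ⊤) {d : ℕ} (hd : 0 < d)
    (lamS : S) (hlamS : lamS ≠ 0) (lamA s : A)
    (𝔓 : ι → Ideal A) (h𝔓 : ∀ i, (𝔓 i).IsPrime)
    (hcov : ∀ P : Ideal A, P.IsPrime → lamA ∉ P → ∃ i, 𝔓 i ≤ P)
    (hdim : ∀ i, ringKrullDim (A ⧸ 𝔓 i) ≤ ringKrullDim S)
    (J : ℕ → Ideal S) (hJ : ∀ n, J n ≤ I ^ n)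
    (L : ∀ n, IALevel.{_, _, 0} S A (J n) d lamS lamA s) :
    ∃ i, ∃ n : ℕ, s ^ n ∈ Ideal.span {lamA} ⊔ 𝔓 i :=
  ia_multi_levels_pow_mem hS hA hfin hd lamS hlamS lamA s 𝔓 h𝔓 hcov hdim
    (fun n => (L n).φ) (fun n => (L n).rep (I ^ n) (hJ n)) (fun n => (L n).φ_lam)
    (fun n f => (L n).rep_phi (I ^ n) (hJ n) f) (fun n => (L n).rep_s (I ^ n) (hJ n))

/-- **Multi-component Ihara avoidance for a patched object in coordinates**, point form. -/
theorem ia_multi_patched_false {S A : Type*} {ι : Type*} [CommRing S] [IsDomain S] [CommRing A]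
    (hfin : ringKrullDim S < ⊤) {d : ℕ} (hd : 0 < d)
    (lamS : S) (hlamS : lamS ≠ 0) (lamA s : A)
    (𝔓 : ι → Ideal A) (h𝔓 : ∀ i, (𝔓 i).IsPrime)
    (hcov : ∀ P : Ideal A, P.IsPrime → lamA ∉ P → ∃ i, 𝔓 i ≤ P)
    (hdim : ∀ i, ringKrullDim (A ⧸ 𝔓 i) ≤ ringKrullDim S)
    (Φ : S →+* A) (P : A →+* Matrix (Fin d) (Fin d) S)
    (h1 : Φ lamS = lamA) (h2 : ∀ f, P (Φ f) = Matrix.scalar (Fin d) f)
    (B : Matrix (Fin d) (Fin d) S) (hB : P s = lamS • B)
    (hpt : ∀ i, ∃ (V : Type) (_ : CommRing V) (_ : IsDomain V) (_ : ValuationRing V)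
      (x : A →+* V), 𝔓 i ≤ RingHom.ker x ∧ ¬ x lamA ∣ x s) : False := by
  classical
  letI : Algebra S A := Φ.toAlgebra
  have halg : ∀ f : S, algebraMap S A f = Φ f := fun f => rfl
  let P' : A →+* Module.End S (Fin d → S) :=
    ((Matrix.toLinAlgEquiv' : Matrix (Fin d) (Fin d) S ≃ₐ[S] _).toAlgHom.toRingHom).comp P
  letI : Module A (Fin d → S) := Module.compHom (Fin d → S) P'
  have hsmul : ∀ (a : A) (m : Fin d → S), a • m = (P a).mulVec m := by
    intro a m
    show (P' a) m = _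
    simp [P', Matrix.toLinAlgEquiv'_apply]
  haveI : IsScalarTower S A (Fin d → S) := by
    refine ⟨fun f a m => ?_⟩
    rw [hsmul, hsmul, Algebra.smul_def, halg, map_mul, h2, ← Matrix.mulVec_mulVec]
    ext i
    simp [Matrix.mulVec, dotProduct, Matrix.scalar_apply, Matrix.diagonal_apply,
      Finset.sum_ite_eq]
  have hfaith : ∀ a : S, (∀ m : Fin d → S, a • m = 0) → a = 0 := by
    intro a ha
    have := congrFun (ha (fun _ => 1)) ⟨0, hd⟩
    simpa using this
  have hcov' : ∀ Q : Ideal A, Q.IsPrime → Q.comap (algebraMap S A) = ⊥ → ∃ i, 𝔓 i ≤ Q := by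
    intro Q hQ hQS
    apply hcov Q hQ
    intro hmem
    apply hlamS
    have : lamS ∈ Q.comap (algebraMap S A) := by
      rw [Ideal.mem_comap, halg, h1]
      exact hmem
    rw [hQS] at this
    exact this
  have hs' : ∀ m : Fin d → S, ∃ m' : Fin d → S, s • m = lamA • m' := by
    intro m
    refine ⟨B.mulVec m, ?_⟩
    rw [hsmul, hsmul, hB, ← h1, h2, Matrix.smul_mulVec]
    ext i
    simp [Matrix.mulVec, dotProduct, Matrix.scalar_apply, Matrix.diagonal_apply,
      Finset.sum_ite_eq]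
  exact ia_multi_false (S := S) (R := A) (M := Fin d → S) hfaith 𝔓 h𝔓 hcov' hdim hfin
    lamA s hs' hpt

/-- **Multi-component Ihara avoidance from levels in coordinates**, point form. -/
theorem ia_multi_levels_false {S A : Type*} {ι : Type*} [CommRing S] [IsDomain S] [CommRing A]
    [IsLocalRing A] {I : Ideal S} (hS : IsProfiniteAdic I)
    (hA : IsProfiniteAdic (maximalIdeal A)) (hfin : ringKrullDim S < ⊤) {d : ℕ} (hd : 0 < d)
    (lamS : S) (hlamS : lamS ≠ 0) (lamA s : A)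
    (𝔓 : ι → Ideal A) (h𝔓 : ∀ i, (𝔓 i).IsPrime)
    (hcov : ∀ P : Ideal A, P.IsPrime → lamA ∉ P → ∃ i, 𝔓 i ≤ P)
    (hdim : ∀ i, ringKrullDim (A ⧸ 𝔓 i) ≤ ringKrullDim S)
    (φ : ℕ → S →+* A) (ρ : ∀ n, A →+* Matrix (Fin d) (Fin d) (S ⧸ I ^ n))
    (hlam : ∀ n, φ n lamS = lamA)
    (hscal : ∀ n f, ρ n (φ n f) = Matrix.scalar (Fin d) (Ideal.Quotient.mk (I ^ n) f))
    (hs : ∀ n, ∃ B : Matrix (Fin d) (Fin d) (S ⧸ I ^ n),
      ρ n s = Ideal.Quotient.mk (I ^ n) lamS • B)
    (hpt : ∀ i, ∃ (V : Type) (_ : CommRing V) (_ : IsDomain V) (_ : ValuationRing V)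
      (x : A →+* V), 𝔓 i ≤ RingHom.ker x ∧ ¬ x lamA ∣ x s) : False := by
  obtain ⟨Φ, P, h1, h2, B, hB⟩ := exists_patched hS hA lamS lamA s φ ρ hlam hscal hs
  exact ia_multi_patched_false hfin hd lamS hlamS lamA s 𝔓 h𝔓 hcov hdim Φ P h1 h2 B hB hpt

/-- **Multi-component Ihara avoidance from module-theoretic levels** (`H901.IALevel`), point
form: if every component `𝔓 i` carries a point `x : A → V` (valuation ring) with
`x lamA ∤ x s`, then there cannot be levels `IALevel S A (J n) d lamS lamA s` with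
`J n ≤ I ^ n` for every `n`. -/
theorem ia_multi_false_of_ialevels {S A : Type*} {ι : Type*} [CommRing S]
    [IsDomain S] [CommRing A] [IsLocalRing A] {I : Ideal S} (hS : IsProfiniteAdic I)
    (hA : IsProfiniteAdic (maximalIdeal A)) (hfin : ringKrullDim S < ⊤) {d : ℕ} (hd : 0 < d)
    (lamS : S) (hlamS : lamS ≠ 0) (lamA s : A)
    (𝔓 : ι → Ideal A) (h𝔓 : ∀ i, (𝔓 i).IsPrime)
    (hcov : ∀ P : Ideal A, P.IsPrime → lamA ∉ P → ∃ i, 𝔓 i ≤ P)
    (hdim : ∀ i, ringKrullDim (A ⧸ 𝔓 i) ≤ ringKrullDim S)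
    (J : ℕ → Ideal S) (hJ : ∀ n, J n ≤ I ^ n)
    (L : ∀ n, IALevel.{_, _, 0} S A (J n) d lamS lamA s)
    (hpt : ∀ i, ∃ (V : Type) (_ : CommRing V) (_ : IsDomain V) (_ : ValuationRing V)
      (x : A →+* V), 𝔓 i ≤ RingHom.ker x ∧ ¬ x lamA ∣ x s) : False :=
  ia_multi_levels_false hS hA hfin hd lamS hlamS lamA s 𝔓 h𝔓 hcov hdim
    (fun n => (L n).φ) (fun n => (L n).rep (I ^ n) (hJ n)) (fun n => (L n).φ_lam)
    (fun n f => (L n).rep_phi (I ^ n) (hJ n) f) (fun n => (L n).rep_s (I ^ n) (hJ n)) hpt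

end Fermat.Agent.S38.IA
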