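import Fermat.Agent.S59.TW.H959.Iface
import Fermat.Agent.S38.H901.IALevel

/-!
# Row HARD: frozen interface, part 3 — the LEVEL BRIDGE (Mathlib-only content)   (helper995)

From a Hecke-side module at one Taylor–Wiles set (`H959.IsGroupRingBasis`) to a module-theoretic
level `H901.IALevel` of the patching core.

`A` = the patched ring (`P ⧸ J`, local, adically complete with finite quotients), acting on the
`T`-module `M` through a surjection `γ : A → T`; `w_i ∈ T` with lifts `ω_i ≡ 1`;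
`M / (w_i^(p^n) - 1)` free over `𝒪[(ℤ/p^n)^r]` with basis `b`; `s • M ⊆ lam • M`.  Then there is an
`IALevel` over `S = 𝒪⟦y_1..y_r⟧` with relation ideal `J_n = ((1 + y_i)^(p^n) - 1)_i`,
`N = M ⧸ (w_i^(p^n) - 1) M`, `φ : y_i ↦ ω_i - 1`.  (`b_span`, `b_rel`: Weierstrass division,
`S59.TW.H959.WeierstrassStatement`, owner helper788.)  Also `J_n ≤ 𝔪_S ^ n`.
-/

set_option autoImplicit false

open IsLocalRing

namespace Fermat.Agent.S38.IA

open Fermat.Agent.S59.TW.H959 Fermat.Agent.S59.Patch.H967 Fermat.Agent.S38.H901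

/-- The relation ideal `J_n = ((1 + y_i)^(p^n) - 1 : i)` of `𝒪⟦y_1..y_r⟧`. -/
noncomputable def twRelIdeal (𝒪 : Type) [CommRing 𝒪] (p n r : ℕ) :
    Ideal (MvPowerSeries (Fin r) 𝒪) :=
  Ideal.span (Set.range fun i : Fin r =>
    ((1 + MvPowerSeries.X i) ^ (p ^ n) - 1 : MvPowerSeries (Fin r) 𝒪))

/-- **LEAF BRIDGE-1**: `J_n ≤ 𝔪_S ^ n`. -/
def IABridgeIdealStatement : Prop :=
  ∀ (p : ℕ) [Fact p.Prime]
    (𝒪 : Type) [CommRing 𝒪] [IsDomain 𝒪] [IsDiscreteValuationRing 𝒪]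
    (_hp𝒪 : (p : 𝒪) ∈ maximalIdeal 𝒪) (n r : ℕ),
    twRelIdeal 𝒪 p n r ≤ maximalIdeal (MvPowerSeries (Fin r) 𝒪) ^ n

/-- **LEAF BRIDGE-2**: the level. -/
def IABridgeStatement : Prop :=
  ∀ (p : ℕ) [Fact p.Prime]
    (𝒪 : Type) [CommRing 𝒪] [IsDomain 𝒪] [IsDiscreteValuationRing 𝒪]
    [IsAdicComplete (maximalIdeal 𝒪) 𝒪] [Finite (ResidueField 𝒪)]
    (_hp𝒪 : (p : 𝒪) ∈ maximalIdeal 𝒪)
    (A : Type) [CommRing A] [IsLocalRing A] [Algebra 𝒪 A]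
    (_hA : IsProfiniteAdic (maximalIdeal A))
    (T : Type) [CommRing T] [Algebra 𝒪 T] (γ : A →ₐ[𝒪] T)
    (M : Type) [AddCommGroup M] [Module T M]
    (n r d : ℕ) (w : Fin r → T) (b : Fin d → M) (_hb : IsGroupRingBasis 𝒪 (p ^ n) w b)
    (_hw : ∀ i, ∃ ω : A, γ ω = w i ∧ ω - 1 ∈ maximalIdeal A)
    (lam : 𝒪) (s : A) (_hs : ∀ m : M, ∃ m' : M, γ s • m = algebraMap 𝒪 T lam • m'),
    Nonempty (IALevel.{0, 0, 0} (MvPowerSeries (Fin r) 𝒪) A (twRelIdeal 𝒪 p n r) d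
      (MvPowerSeries.C lam) (algebraMap 𝒪 A lam) s)

/-- **LEAF BRIDGE-3**: `S = 𝒪⟦y_1..y_r⟧` is adically complete with finite quotients and has
Krull dimension `r + 1`. -/
def IABridgeBaseStatement : Prop :=
  ∀ (𝒪 : Type) [CommRing 𝒪] [IsDomain 𝒪] [IsDiscreteValuationRing 𝒪]
    [IsAdicComplete (maximalIdeal 𝒪) 𝒪] [Finite (ResidueField 𝒪)] (r : ℕ),
    IsProfiniteAdic (maximalIdeal (MvPowerSeries (Fin r) 𝒪)) ∧
      ringKrullDim (MvPowerSeries (Fin r) 𝒪) = ((r + 1 : ℕ) : WithBot ℕ∞)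

end Fermat.Agent.S38.IA
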