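import Fermat.Agent.S38.IA.Spec3
import Fermat.Agent.S38.IA.SpecBridge
import Fermat.Agent.S38.IA.Multi
import Fermat.Agent.S53.H596.PowerSeriesCNL
import Fermat.Agent.S59.Patch.H967.Main

/-!
# Row HARD, assembly: commutative-algebra lemmas   (helper995)

* `mem_span_range_smul_top_iff`, `isGroupRingBasis_transport`: `H959.IsGroupRingBasis` only
  depends on the action of the `w_i` and of `𝒪` on the module;
* `isProfiniteAdic_locAmb_quotient`: quotients of the ambient ring are adically complete with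
  finite quotients;
* `exists_le_of_iInf_le`, `ringKrullDim_quotient_map_le`: components of a quotient.
-/

set_option autoImplicit false
set_option linter.unusedSectionVars false
set_option linter.style.haveILetI false

open IsLocalRing

namespace Fermat.Agent.S38.IA

open Fermat.Agent.S59.TW.H959 Fermat.Agent.S59.Patch.H967

section GroupRing

variable {T M : Type*} [CommRing T] [AddCommGroup M] [Module T M]

/-- `(g_1, …, g_r) M = ∑ g_i M`. -/
theorem mem_span_range_smul_top_iff {r : ℕ} (g : Fin r → T) (x : M) :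
    x ∈ Ideal.span (Set.range g) • (⊤ : Submodule T M) ↔ ∃ y : Fin r → M, x = ∑ i, g i • y i := by
  constructor
  · intro hx
    refine Submodule.smul_induction_on hx ?_ ?_
    · intro t ht n _
      obtain ⟨c, rfl⟩ := Ideal.mem_span_range_iff_exists_fun.mp ht
      refine ⟨fun i => c i • n, ?_⟩
      rw [Finset.sum_smul]
      refine Finset.sum_congr rfl fun i _ => ?_
      rw [mul_comm, mul_smul]
    · rintro x y ⟨a, rfl⟩ ⟨b, rfl⟩
      refine ⟨fun i => a i + b i, ?_⟩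
      rw [← Finset.sum_add_distrib]
      exact Finset.sum_congr rfl fun i _ => (smul_add _ _ _).symm
  · rintro ⟨y, rfl⟩
    exact Submodule.sum_mem _ fun i _ =>
      Submodule.smul_mem_smul (Ideal.subset_span ⟨i, rfl⟩) Submodule.mem_top

end GroupRing

section Transport

variable {𝒪 : Type} [CommRing 𝒪] {T₁ T₂ : Type} [CommRing T₁] [CommRing T₂] [Algebra 𝒪 T₁]
  [Algebra 𝒪 T₂] {M : Type} [AddCommGroup M] [Module T₁ M] [Module T₂ M]

/-- two scalars act in the same way -/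
def SameAct (t₂ : T₂) (t₁ : T₁) : Prop := ∀ x : M, t₂ • x = t₁ • x

theorem SameAct.mul {a₂ b₂ : T₂} {a₁ b₁ : T₁} (ha : SameAct (M := M) a₂ a₁)
    (hb : SameAct (M := M) b₂ b₁) : SameAct (M := M) (a₂ * b₂) (a₁ * b₁) := by
  intro x
  rw [mul_smul, mul_smul, hb, ha]

theorem SameAct.one : SameAct (M := M) (1 : T₂) (1 : T₁) := by
  intro x
  rw [one_smul, one_smul]

theorem SameAct.sub {a₂ b₂ : T₂} {a₁ b₁ : T₁} (ha : SameAct (M := M) a₂ a₁)
    (hb : SameAct (M := M) b₂ b₁) : SameAct (M := M) (a₂ - b₂) (a₁ - b₁) := by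
  intro x
  rw [sub_smul, sub_smul, hb, ha]

theorem SameAct.pow {a₂ : T₂} {a₁ : T₁} (ha : SameAct (M := M) a₂ a₁) (n : ℕ) :
    SameAct (M := M) (a₂ ^ n) (a₁ ^ n) := by
  induction n with
  | zero => rw [pow_zero, pow_zero]; exact SameAct.one
  | succ n ih => rw [pow_succ, pow_succ]; exact ih.mul ha

theorem SameAct.prod {ι : Type*} (s : Finset ι) {a₂ : ι → T₂} {a₁ : ι → T₁}
    (ha : ∀ i ∈ s, SameAct (M := M) (a₂ i) (a₁ i)) :
    SameAct (M := M) (∏ i ∈ s, a₂ i) (∏ i ∈ s, a₁ i) := by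
  classical
  induction s using Finset.induction_on with
  | empty => rw [Finset.prod_empty, Finset.prod_empty]; exact SameAct.one
  | insert i s hi ih =>
    rw [Finset.prod_insert hi, Finset.prod_insert hi]
    exact (ha i (Finset.mem_insert_self i s)).mul
      (ih fun j hj => ha j (Finset.mem_insert_of_mem hj))

/-- **Transport of `IsGroupRingBasis`** between two rings acting on the same module. -/
theorem isGroupRingBasis_transport {m r d : ℕ} (w₁ : Fin r → T₁) (w₂ : Fin r → T₂)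
    (b : Fin d → M)
    (h𝒪 : ∀ c : 𝒪, SameAct (M := M) (algebraMap 𝒪 T₂ c) (algebraMap 𝒪 T₁ c))
    (hw : ∀ i, SameAct (M := M) (w₂ i) (w₁ i))
    (h : IsGroupRingBasis 𝒪 m w₁ b) : IsGroupRingBasis 𝒪 m w₂ b := by
  have hsub : ∀ x : M,
      x ∈ Ideal.span (Set.range fun i => w₂ i ^ m - 1) • (⊤ : Submodule T₂ M) ↔
        x ∈ Ideal.span (Set.range fun i => w₁ i ^ m - 1) • (⊤ : Submodule T₁ M) := by
    intro x
    rw [mem_span_range_smul_top_iff, mem_span_range_smul_top_iff]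
    have hi : ∀ i, SameAct (M := M) (w₂ i ^ m - 1) (w₁ i ^ m - 1) :=
      fun i => ((hw i).pow m).sub SameAct.one
    constructor
    · rintro ⟨y, rfl⟩
      exact ⟨y, Finset.sum_congr rfl fun i _ => hi i (y i)⟩
    · rintro ⟨y, rfl⟩
      exact ⟨y, Finset.sum_congr rfl fun i _ => (hi i (y i)).symm⟩
  have helt : ∀ c : Fin d → (Fin r → Fin m) → 𝒪,
      (∑ j, ∑ a, (algebraMap 𝒪 T₂ (c j a) * ∏ i, w₂ i ^ (a i : ℕ)) • b j) =
        ∑ j, ∑ a, (algebraMap 𝒪 T₁ (c j a) * ∏ i, w₁ i ^ (a i : ℕ)) • b j := by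
    intro c
    refine Finset.sum_congr rfl fun j _ => Finset.sum_congr rfl fun a _ => ?_
    exact ((h𝒪 (c j a)).mul (SameAct.prod _ fun i _ => (hw i).pow _)) (b j)
  refine ⟨fun x => ?_, fun c hc => ?_⟩
  · obtain ⟨c, hc⟩ := h.1 x
    refine ⟨c, ?_⟩
    rw [hsub, helt]
    exact hc
  · rw [hsub, helt] at hc
    exact h.2 c hc

end Transport

section Quot

variable {𝒪 : Type} [CommRing 𝒪] [IsDomain 𝒪] [IsDiscreteValuationRing 𝒪]
  [IsAdicComplete (maximalIdeal 𝒪) 𝒪] [Finite (ResidueField 𝒪)]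

/-- Local quotients of a power series ring in finitely many variables over `𝒪` are adically
complete with finite quotients. -/
theorem isProfiniteAdic_mvPowerSeries_quotient {σ : Type} [Fintype σ]
    (J : Ideal (MvPowerSeries σ 𝒪)) [IsLocalRing (MvPowerSeries σ 𝒪 ⧸ J)] :
    IsProfiniteAdic (maximalIdeal (MvPowerSeries σ 𝒪 ⧸ J)) := by
  classical
  let e : Fin (Fintype.card σ) ≃ σ := (Fintype.equivFin σ).symm
  let ψ : MvPowerSeries (Fin (Fintype.card σ)) 𝒪 →ₐ[𝒪] (MvPowerSeries σ 𝒪 ⧸ J) :=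
    (Ideal.Quotient.mkₐ 𝒪 J).comp (MvPowerSeries.renameEquiv 𝒪 e).toAlgHom
  have hψ : Function.Surjective ψ := by
    intro y
    obtain ⟨x, rfl⟩ := Ideal.Quotient.mk_surjective y
    refine ⟨(MvPowerSeries.renameEquiv 𝒪 e).symm x, ?_⟩
    show Ideal.Quotient.mk J ((MvPowerSeries.renameEquiv 𝒪 e)
      ((MvPowerSeries.renameEquiv 𝒪 e).symm x)) = _
    rw [AlgEquiv.apply_symm_apply]
  exact isProfiniteAdic_of_surjective ψ hψ

end Quot

section Comp

variable {P : Type*} [CommRing P]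

/-- A prime containing a finite intersection contains one of the ideals. -/
theorem exists_le_of_iInf_le {ι : Type*} [Finite ι] (𝔓 : ι → Ideal P) {Q : Ideal P}
    (hQ : Q.IsPrime) (h : (⨅ i, 𝔓 i) ≤ Q) : ∃ i, 𝔓 i ≤ Q := by
  classical
  haveI := Fintype.ofFinite ι
  have h1 : (Finset.univ : Finset ι).inf 𝔓 ≤ Q := by
    rw [Finset.inf_univ_eq_iInf]
    exact h
  obtain ⟨i, -, hi⟩ := (Ideal.IsPrime.inf_le' hQ).mp h1
  exact ⟨i, hi⟩

/-- `dim (P/J)/(𝔓/J) ≤ dim P/I` for `I ≤ 𝔓`. -/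
theorem ringKrullDim_quotient_map_le (J I 𝔓 : Ideal P) (hI : I ≤ 𝔓) :
    ringKrullDim ((P ⧸ J) ⧸ 𝔓.map (Ideal.Quotient.mk J)) ≤ ringKrullDim (P ⧸ I) := by
  let f : P ⧸ I →+* (P ⧸ J) ⧸ 𝔓.map (Ideal.Quotient.mk J) :=
    Ideal.Quotient.lift I ((Ideal.Quotient.mk _).comp (Ideal.Quotient.mk J)) (fun a ha => by
      rw [RingHom.comp_apply, Ideal.Quotient.eq_zero_iff_mem]
      exact Ideal.mem_map_of_mem _ (hI ha))
  refine ringKrullDim_le_of_surjective f ?_
  intro y
  obtain ⟨y, rfl⟩ := Ideal.Quotient.mk_surjective y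
  obtain ⟨y, rfl⟩ := Ideal.Quotient.mk_surjective y
  exact ⟨Ideal.Quotient.mk I y, rfl⟩

/-- The image of a prime `𝔓 ⊇ J` in `P/J` is prime. -/
theorem isPrime_map_mk_of_le (J 𝔓 : Ideal P) (h𝔓 : 𝔓.IsPrime) (hJ : J ≤ 𝔓) :
    (𝔓.map (Ideal.Quotient.mk J)).IsPrime := by
  refine Ideal.map_isPrime_of_surjective Ideal.Quotient.mk_surjective ?_
  rw [Ideal.mk_ker]
  exact hJ

/-- comap of the image. -/
theorem comap_map_mk_of_le (J 𝔓 : Ideal P) (hJ : J ≤ 𝔓) :
    (𝔓.map (Ideal.Quotient.mk J)).comap (Ideal.Quotient.mk J) = 𝔓 := by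
  rw [Ideal.comap_map_of_surjective _ Ideal.Quotient.mk_surjective, ← RingHom.ker_eq_comap_bot,
    Ideal.mk_ker]
  exact sup_eq_left.mpr hJ

end Comp

end Fermat.Agent.S38.IA
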