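import Fermat.Agent.S38.IA.AsmOpen
import Fermat.Agent.S38.IA.Hecke.Wire5
import Fermat.Agent.S35.H991.Ready
import Fermat.Agent.S35.H991.Final
import Fermat.Agent.S36.H683.Top
import Fermat.Agent.S36.Eng.Two
import Fermat.Agent.S36.Alg3.Final
import Fermat.Agent.S36.Mod3.H928.OfCusp
import Fermat.Agent.S36.Mod3.H96.CuspCong

/-!
# Row HARD: IA-CORE for `5 ≤ p`, CLOSED  (row-lead helper995; wiring only)

`iaCore5_closed : IACore5Statement`, unconditional:
* the Ihara-avoidance chain `AsmGal5.iaCore5_of_hecke5` (ASM, CORE, BRIDGE, LOC, S53, S54, COND,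
  GAL);
* the cell HECKE `Hecke.iaHecke5_of_rows` (sub-architect helper3, `Hecke/Wire5.lean`);
* the results of the rows S23, S30, S31, S32, S34 (`PkgWired.lean`), G4 (`AsmOpen.lean`),
  S35 and S36 — on their PLAIN tops (the statement files `Fermat/Agent/S35.lean`,
  `Fermat/Agent/S36.lean` are or will be PACKED on main and must not be imported).
-/

set_option autoImplicit false

namespace Fermat.Agent.S38.IA

/-- The frozen S35, on the plain top of the row (`S35/H991`). -/
theorem s35Statement_h995 : Fermat.Agent.S58.S35Statement := by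
  intro M _ g hg lam _ S O' _ _ _ _ _ _ hlamO' chig hchig iota hlamS hMS
  exact Fermat.Agent.S35.H991.result_of_qnf Fermat.Agent.S35.H991.qNewFrob_final
    hg lam S O' hlamO' chig hchig iota hlamS hMS

/-- The frozen S36, on the plain top of the row (`S36/H683`, `S36/Eng`, `S36/Alg3`,
`S36/Mod3`). -/
theorem s36Statement_h995 : Fermat.Agent.S58.S36Statement := by
  intro M _ g hg lam _ S O' _ _ _ _ _ _ hlamO' _ chig hchig iota hlamS hMS _
  exact Fermat.Agent.S36.H683.result_of_newPart
    (Fermat.Agent.S36.Eng.newPartInertia_of_alg3_model3 Fermat.Agent.S36.Alg3.alg3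
      (Fermat.Agent.S36.Mod3.H928.model3_of_cuspCong Fermat.Agent.S36.Mod3.H96.leafCuspCong96))
    hg lam S O' hlamO' chig hchig iota hlamS hMS

/-- **The cell HECKE of row HARD, closed.** -/
theorem iaHecke5_closed : Hecke.IAHecke5Statement :=
  Hecke.iaHecke5_of_rows pkgFlat_h995 g4_h995 s34Shape494_h995 s30Statement_h995
    (fun M _ => s23Shape_h995 M) s35Statement_h995 s36Statement_h995

/-- **IA-CORE for `5 ≤ p`, closed**: level lowering at a pivot. -/
theorem iaCore5_closed : IACore5Statement :=
  iaCore5_of_hecke5 iaHecke5_closed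

end Fermat.Agent.S38.IA
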