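import Fermat.Agent.S38.IA.AsmAlg
import Fermat.Agent.S53.GlueInj
import Fermat.Agent.S56.H966.CondBC

/-!
# Row HARD, assembly: Galois-side transports, the Steinberg identity, type values, the point
(helper995)

* `not_unip_of_comp`: non-unipotency at `q` passes from `ρ_T ⊗ 𝒪'` to `ρ_R ⊗ 𝒪'`;
* `trace_map_eq`: `tr ρ_T = φ (tr ρ_R)`;
* `trace_sq_sub_eq_of_tracelessCoords`: `tr² - (1+q)² = 4 Q(w) - (q-1)²` if `det = q`;
* `finite_typeVectors`, `exists_typeVector`: there are finitely many (and at least one) type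
  vectors;
* `exists_point_of_factor`: the characteristic-`p` point `v = 0`, `w_{q₀} = (T, 0, 0)` on every
  component with the FACTOR property.
-/

set_option autoImplicit false
set_option linter.unusedSectionVars false
set_option linter.style.haveILetI false
set_option linter.unusedVariables false

open IsLocalRing

namespace Fermat.Agent.S38.IA

open Fermat.Agent.S53.H113 Fermat.Agent.S56.H966

local notation "GQ995" => (AlgebraicClosure ℚ ≃ₐ[ℚ] AlgebraicClosure ℚ)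

section Transport

variable {A B C : Type} [CommRing A] [IsLocalRing A] [CommRing B] [IsLocalRing B]
  [CommRing C] [IsLocalRing C]

/-- Equivalent representations have the same traces. -/
theorem trace_eq_of_isEquiv_h995 {ρ₁ ρ₂ : GaloisRepAdic A} (h : ρ₁.IsEquiv ρ₂) (σ : GQ995) :
    ρ₁.trace σ = ρ₂.trace σ := by
  obtain ⟨e⟩ := h
  show LinearMap.trace A ρ₁.V (ρ₁.ρ σ) = LinearMap.trace A ρ₂.V (ρ₂.ρ σ)
  rw [equiv_rho_eq_conj e σ, LinearMap.trace_conj']

/-- The trace of a base change. -/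
theorem trace_baseChangeAlong_h995 (φ : A →+* B) (hφ : IsLocalHom φ) (ρ : GaloisRepAdic A)
    (σ : GQ995) : (ρ.baseChangeAlong φ hφ).trace σ = φ (ρ.trace σ) := by
  letI : Algebra A B := φ.toAlgebra
  exact LinearMap.trace_baseChange (ρ.ρ σ) B

/-- `tr ρ_B = φ (tr ρ_A)` if `ρ_A ⊗ B ≅ ρ_B`. -/
theorem trace_map_eq (φ : A →+* B) (hφ : IsLocalHom φ) (ρA : GaloisRepAdic A)
    (ρB : GaloisRepAdic B) (h : (ρA.baseChangeAlong φ hφ).IsEquiv ρB) (σ : GQ995) :
    ρB.trace σ = φ (ρA.trace σ) := by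
  rw [← trace_eq_of_isEquiv_h995 h σ, trace_baseChangeAlong_h995]

/-- Non-unipotency passes to the composite. -/
theorem not_unip_of_comp (φ : A →+* B) (hφ : IsLocalHom φ) (ρA : GaloisRepAdic A)
    (ρB : GaloisRepAdic B) (h : (ρA.baseChangeAlong φ hφ).IsEquiv ρB)
    (x : B →+* C) (hx : IsLocalHom x) (χ : A →+* C) (hχ : IsLocalHom χ) (hcomp : x.comp φ = χ)
    {q : ℕ} (hnu : ¬ (ρB.baseChangeAlong x hx).IsUnipotentOnInertiaAt q) :
    ¬ (ρA.baseChangeAlong χ hχ).IsUnipotentOnInertiaAt q := by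
  intro hu
  apply hnu
  have e1 := baseChangeAlong_comp_isEquiv' φ hφ x hx χ hχ hcomp ρA
  have e2 := isEquiv_baseChangeAlong x hx h
  exact isUnipotentOnInertiaAt_of_isEquiv (isEquiv_trans (isEquiv_symm e1) e2) hu

end Transport

section Steinberg

variable {R V : Type} [CommRing R] [AddCommGroup V] [Module R V]

/-- **The Steinberg identity**: `tr² - (1+q)² = 4 Q(w) - (q-1)²` if `det = q`. -/
theorem trace_sq_sub_eq_of_tracelessCoords (bas : Module.Basis (Fin 2) R V)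
    (f : Module.End R V) (u : Fin 3 → R) (hu : IsTracelessCoords bas f u) (c : R)
    (hdet : LinearMap.det f = c) :
    LinearMap.trace R V f ^ 2 - (1 + c) ^ 2 = 4 * (u 0 ^ 2 + u 1 * u 2) - (c - 1) ^ 2 := by
  obtain ⟨h0, h1, h2⟩ := hu
  have htr : LinearMap.trace R V f =
      LinearMap.toMatrix bas bas f 0 0 + LinearMap.toMatrix bas bas f 1 1 := by
    rw [LinearMap.trace_eq_matrix_trace R bas f, Matrix.trace_fin_two]
  have hd : LinearMap.toMatrix bas bas f 0 0 * LinearMap.toMatrix bas bas f 1 1 -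
      LinearMap.toMatrix bas bas f 0 1 * LinearMap.toMatrix bas bas f 1 0 = c := by
    rw [← hdet, ← LinearMap.det_toMatrix bas f, Matrix.det_fin_two]
  rw [htr, h1, h2]
  linear_combination (-(2 * u 0 + LinearMap.toMatrix bas bas f 0 0 -
    LinearMap.toMatrix bas bas f 1 1)) * h0 + 4 * hd

end Steinberg

section TypeValues

variable {𝒪 : Type} [CommRing 𝒪] [IsDomain 𝒪]

/-- The type values at `q` form a finite set. -/
theorem finite_typeValues (p q : ℕ) (hq : 1 < q) (h2 : (2 : 𝒪) ≠ 0) :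
    {δ : 𝒪 | IsTypeValue p q δ}.Finite := by
  classical
  have hfin : {ζ : 𝒪 | ζ ^ (q - 1) = 1}.Finite := by
    have hn : 0 < q - 1 := by omega
    refine Set.Finite.subset (Polynomial.nthRoots (q - 1) (1 : 𝒪)).toFinset.finite_toSet ?_
    intro ζ hζ
    rw [Finset.mem_coe, Multiset.mem_toFinset, Polynomial.mem_nthRoots hn]
    exact hζ
  let f : 𝒪 → 𝒪 := fun ζ => if h : ∃ δ : 𝒪, 2 * δ * ζ = ζ ^ 2 - 1 then h.choose else 0
  refine Set.Finite.subset (hfin.image f) ?_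
  rintro δ ⟨ζ, -, ⟨m, hm⟩, hζq, hrel⟩
  refine ⟨ζ, hζq, ?_⟩
  have hex : ∃ δ : 𝒪, 2 * δ * ζ = ζ ^ 2 - 1 := ⟨δ, hrel⟩
  have hf : f ζ = hex.choose := dif_pos hex
  have h1 := hex.choose_spec
  have hζ0 : ζ ≠ 0 := by
    intro h0
    rw [h0, zero_pow (by omega)] at hζq
    exact zero_ne_one hζq
  rw [hf]
  have h3 : (2 * ζ) * hex.choose = (2 * ζ) * δ := by
    linear_combination h1 - hrel
  exact mul_left_cancel₀ (mul_ne_zero h2 hζ0) h3

/-- The type vectors form a finite set. -/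
theorem finite_typeVectors (p : ℕ) (κ : Finset ℕ) (hκ : ∀ q ∈ κ, 1 < q) (h2 : (2 : 𝒪) ≠ 0) :
    Finite {δ : κ → 𝒪 // ∀ q : κ, IsTypeValue p (q : ℕ) (δ q)} := by
  have h : (Set.pi Set.univ fun q : κ => {δ : 𝒪 | IsTypeValue p (q : ℕ) δ}).Finite :=
    Set.Finite.pi fun q => finite_typeValues p (q : ℕ) (hκ q q.2) h2
  have heq : {δ : κ → 𝒪 | ∀ q : κ, IsTypeValue p (q : ℕ) (δ q)} =
      Set.pi Set.univ fun q : κ => {δ : 𝒪 | IsTypeValue p (q : ℕ) δ} := by
    ext δ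
    simp [Set.mem_pi]
  rw [← heq] at h
  exact h.to_subtype

/-- A type value from a primitive `p`-th root of unity. -/
theorem exists_typeValue (p : ℕ) (hp : p.Prime) (ζ : 𝒪) (hζ : IsPrimitiveRoot ζ p)
    (h2 : IsUnit (2 : 𝒪)) : ∃ δ : 𝒪, ∀ q : ℕ, p ∣ q - 1 → IsTypeValue p q δ := by
  have hζu : IsUnit ζ := hζ.isUnit hp.ne_zero
  obtain ⟨u, hu⟩ := h2.mul hζu
  refine ⟨(ζ ^ 2 - 1) * ((u⁻¹ : 𝒪ˣ) : 𝒪), fun q hq => ⟨ζ, ?_, ⟨1, ?_⟩, ?_, ?_⟩⟩
  · exact hζ.ne_one hp.one_lt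
  · rw [pow_one]
    exact hζ.pow_eq_one
  · obtain ⟨c, hc⟩ := hq
    rw [hc, pow_mul, hζ.pow_eq_one, one_pow]
  · have h1 : (u : 𝒪) * ((u⁻¹ : 𝒪ˣ) : 𝒪) = 1 := by
      rw [← Units.val_mul, mul_inv_cancel, Units.val_one]
    rw [hu] at h1
    linear_combination (ζ ^ 2 - 1) * h1

end TypeValues

end Fermat.Agent.S38.IA
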