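import Fermat.Agent.S38.IA.AsmWired
import Fermat.Agent.S38.IA.H833.GalClosed

/-!
# Row HARD: everything but the Hecke side   (helper995)

`iaCore5_of_hecke5 : Hecke.IAHecke5Statement → IACore5Statement` and
`iaCore_of_hecke : IAHeckeStatement → IACoreStatement`:
GAL is closed (`S38/IA/H833/GalClosed.lean`: helper183 relative Taylor–Wiles primes, helper1
integration, helper953 adapter, helper419/474 TYPE; verified by helper833), LOC, BRIDGE, S53, S54,
COND are closed (`AsmWired.lean`).  The ONLY open leaf of `IACore5Statement` is the Hecke side.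
-/

set_option autoImplicit false

namespace Fermat.Agent.S38.IA

/-- **Row HARD modulo the Hecke side**, `5 ≤ p`. -/
theorem iaCore5_of_hecke5 (hHecke5 : Hecke.IAHecke5Statement) : IACore5Statement :=
  iaCore5_of_gal_hecke5 H833.iaGal833 hHecke5

/-- **Row HARD modulo the Hecke side**, all odd `p`. -/
theorem iaCore_of_hecke (hHecke : IAHeckeStatement) : IACoreStatement :=
  iaCore_of_gal_hecke H833.iaGal833 hHecke

end Fermat.Agent.S38.IA
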