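import Fermat.Agent.S38.IA.Hecke.Spec
import Fermat.Agent.S59.TW.H659.PkgFlat
import Fermat.Agent.S23.Cap.Main
import Fermat.Agent.S30.Chain.FromT
import Fermat.Agent.S30.H694.TorsionRelOfNodes
import Fermat.Agent.S18.Mod.H216.NodeMod
import Fermat.Agent.S18.H438.NodeAlg
import Fermat.Agent.S31.H22.FinalS30
import Fermat.Agent.S59.TW.H659.Clean.S32
import Fermat.Agent.A3.H615.GrFinal
import Fermat.Agent.S34.K789.WallFinal
import Fermat.Agent.A2.Top.H96.WallNoSep
import Fermat.Agent.A2.Mod.H142.S2Final
import Fermat.Agent.A2.Mod.H372.S3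
import Fermat.Agent.A2.Mod.H96.L12
import Fermat.Agent.A2.Mod.H216.GoodRedAll

/-!
# Row HARD, leaf PKG (flat type) CLOSED  (helper995, wiring only)

`pkgFlat_h995 : IA.Hecke.PkgFlatStatement`, by `S59.TW.H659.pkgFlat_of` (helper659) applied to the
landed proofs of S23, S30, S31, S32 (realizer-free chain `H659.Clean`), S34.  The PLAIN tops of
these rows are imported (never the
statement files `Fermat/Agent/SNN.lean`, which may be replaced by packed versions on main); the
five short proof terms below are the bodies of the landed `SNN.result`.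
-/

set_option autoImplicit false

open Polynomial IsLocalRing

namespace Fermat.Agent.S38.IA

/-- S23 in the shape used by `pkgFlat_of`. -/
theorem s23Shape_h995 : Fermat.Agent.S59.TW.H659.S23Shape :=
  fun N _ => Fermat.Agent.S23.Cap.hasIntegralStructure N 2

/-- S30 in the shape used by `pkgFlat_of`. -/
theorem s30Statement_h995 : Fermat.Agent.S31.S30Statement := by
  intro p _ N _ S hpS hNS 𝒪' _ _ _ _ _ _ hp𝒪' χ
  exact Fermat.Agent.S30.Chain.result_of_T
    (Fermat.Agent.S30.H694.torsionRelations_of_nodes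
      (fun M _ _ _ hℓM A hA => Fermat.Agent.S18.Mod.H216.node_mod M hℓM A hA)
      (fun M => Fermat.Agent.S18.H438.node_alg M))
    p N S hpS hNS 𝒪' hp𝒪' χ

/-- S31 in the shape used by `pkgFlat_of`. -/
theorem s31Shape_h995 : Fermat.Agent.S59.TW.H659.S31Shape :=
  fun hp hp𝒪 hpS hNS H q hq hqS =>
    Fermat.Agent.S31.H22.result_of_S30 s30Statement_h995 hp hp𝒪 hpS hNS H q hq hqS

/-- S32 in the shape used by `pkgFlat_of`, on helper659's realizer-free chain
(`Fermat.Agent.S32.OfS19` has `S31/H982/TracePow` in its closure, which realizes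
`S31.powTr.eq_def` differently from `S31/H22/PowTr`: collision found by helper63 / helper475). -/
theorem s32Statement_h995 : Fermat.Agent.S32.S32Statement :=
  Fermat.Agent.S59.TW.H659.Clean.s32Statement_clean659

/-- S34 in the shape used by `pkgFlat_of`. -/
theorem s34Shape_h995 : Fermat.Agent.S59.TW.H659.S34Shape :=
  fun hp hp𝒪 => fun hpS hNS => fun H q hq hqp hqN hq2 =>
    Fermat.Agent.S34.K789.result_of_wall
      (Fermat.Agent.A2.Top.H96.wall_noSep
        (fun P E M q _ _ w => Fermat.Agent.A2.Mod.H142.s2 P E M q w)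
        (fun P E M q _ _ w => Fermat.Agent.A2.Mod.H372.s3_of_leaves P E M q w
          (Fermat.Agent.A2.Mod.H751.frickeExists E)
          (Fermat.Agent.A2.Mod.H751.frickeCompat E M q)
          (Fermat.Agent.A2.Mod.H900.frickeStable P E M q w)
          (Fermat.Agent.A2.Mod.H31.deg E M q)
          (Fermat.Agent.A2.Mod.H378.resInf P E M q w)
          (Fermat.Agent.A2.Mod.H96.kron P E M q w)
          (Fermat.Agent.A2.Mod.H142.s2 P E M q w))
        Fermat.Agent.A2.Top.H216.goodRedStatement)
      hp hp𝒪 hpS hNS H q hq hqp hqN hq2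

/-- **Leaf PKG (flat type) of the cell HECKE, closed.** -/
theorem pkgFlat_h995 : Hecke.PkgFlatStatement :=
  Fermat.Agent.S59.TW.H659.pkgFlat_of s23Shape_h995 s30Statement_h995 s31Shape_h995
    s32Statement_h995 s34Shape_h995

end Fermat.Agent.S38.IA
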