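import Fermat.Agent.S38.IA.AsmGal5
import Fermat.Agent.S38.IA.Hecke.Wire4
import Fermat.Agent.S38.IA.PkgWired

/-!
# Row HARD: IA-CORE (`5 ≤ p`) from the OPEN leaves of the row  (row-lead helper995)

Everything closed is plugged in:
* ASM, CORE (helper901), BRIDGE (helper607), LOC (helper678, helper506), S53, S54, COND, GAL
  (`AsmGal5.iaCore5_of_hecke5`);
* HECKE (sub-architect helper3, `Hecke.iaHecke5_of_open1`): layers 2, 3 glue, IDEM, IA-NONTRIV,
  IA-RANK, IA-CHAR (helper483), glue A (helper354), glue B, INX, INO, CYC, ALG, IA-FREE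
  (helper916), IA-MOD (helper781), IA-CTRL (helper299 / helper483), IA-NU (helper47, helper473),
  IA-CMP glue + Galois half (helper183), IA-DICT-T (helper81), IA-DICT-R (helper227);
* PKG flat (`pkgFlat_h995`), G4, S23, S30, S34 (plain tops, see `PkgWired.lean`).

OPEN = the hypotheses of `iaCore5_of_open1`:
* the frozen S36 (row S36: `S58.S36Statement`),
* IA-ST in the pointwise form `H473.IAStPtStatement` (squad helper53).
-/

set_option autoImplicit false

open IsLocalRing

namespace Fermat.Agent.S38.IA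

/-- Layer G4 of row S59, assembled on the plain top of S30. -/
theorem g4_h995 : Fermat.Agent.S59.G4.G4Statement :=
  Fermat.Agent.S59.G4.g4_of s30Statement_h995 Fermat.Agent.S59.G4.H547.red
    Fermat.Agent.S59.G4.H109.points Fermat.Agent.S59.G4.H532.traceFn
    Fermat.Agent.S59.G4.H109.resStatement2

/-- S34 in the shape of helper494. -/
theorem s34Shape494_h995 : Fermat.Agent.S59.TW.H494.S34Shape494 :=
  fun hp hp𝒪 => fun hpS hNS => fun H q hq hqp hqN hq2 =>
    s34Shape_h995 hp hp𝒪 hpS hNS H q hq hqp hqN hq2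

/-- **The cell HECKE from the frozen S36 and IA-ST (pointwise).** -/
theorem iaHecke5_of_open1 (h36 : Fermat.Agent.S58.S36Statement)
    (hStPt : Fermat.Agent.S38.H473.IAStPtStatement) : Hecke.IAHecke5Statement :=
  Hecke.iaHecke5_of_open1 pkgFlat_h995 g4_h995 s34Shape494_h995 s30Statement_h995
    (fun M _ => s23Shape_h995 M) h36 hStPt

/-- **IA-CORE for `5 ≤ p` from the frozen S36 and IA-ST (pointwise).** -/
theorem iaCore5_of_open1 (h36 : Fermat.Agent.S58.S36Statement)
    (hStPt : Fermat.Agent.S38.H473.IAStPtStatement) : IACore5Statement :=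
  iaCore5_of_hecke5 (iaHecke5_of_open1 h36 hStPt)

end Fermat.Agent.S38.IA
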