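import Fermat.Agent.S38.IA.AsmGal

/-!
# Row HARD, assembly: the point on a component   (helper995)

`exists_point_of_factor`: every ideal `𝔓` of the ambient ring with the FACTOR property for the
type vector `δ` (`IALocCompStatement`) carries the point
`x : P → 𝒪⟦T⟧ → k⟦T⟧`, `v_q ↦ (δ_q, 0, 0) ↦ 0`, `w_{q₀} ↦ (T, 0, 0)`, the other variables `↦ 0`,
and `x (lam) = 0`, `x (hElt q₀) = 4 T² ≠ 0` (helper901's characteristic-`p` point).
No hypothesis on the ramification of `𝒪`.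
-/

set_option autoImplicit false
set_option linter.unusedSectionVars false
set_option linter.style.haveILetI false
set_option linter.unusedVariables false

open IsLocalRing

namespace Fermat.Agent.S38.IA

open Fermat.Agent.S53.H113 Fermat.Agent.S53.H596

/-- In a local ring with odd residue characteristic, `2` is a unit. -/
theorem isUnit_two_h995 (p : ℕ) (hp : p.Prime) (hp2 : p ≠ 2) (R : Type) [CommRing R]
    [IsLocalRing R] (hpR : (p : R) ∈ maximalIdeal R) : IsUnit (2 : R) := by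
  rw [← IsLocalRing.notMem_maximalIdeal]
  intro h2
  have hodd : Odd p := hp.odd_of_ne_two hp2
  obtain ⟨k, hk⟩ := hodd
  have h1 : (1 : R) = (p : R) - 2 * (k : R) := by
    rw [hk]
    push_cast
    ring
  have : (1 : R) ∈ maximalIdeal R := by
    rw [h1]
    exact Ideal.sub_mem _ hpR (Ideal.mul_mem_right _ _ h2)
  exact (Ideal.ne_top_iff_one _).mp (maximalIdeal.isMaximal R).ne_top this

/-- **The point on a component.** -/
theorem exists_point_of_factor (p : ℕ) [hpF : Fact p.Prime] (hp2 : p ≠ 2)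
    (𝒪 : Type) [CommRing 𝒪] [IsDomain 𝒪] [IsDiscreteValuationRing 𝒪]
    [IsAdicComplete (maximalIdeal 𝒪) 𝒪] (hp𝒪 : (p : 𝒪) ∈ maximalIdeal 𝒪)
    (Piv : Finset ℕ) (hPiv : ∀ q ∈ Piv, q.Prime ∧ p ∣ q - 1) (g : ℕ)
    (δ : Piv → 𝒪) (hδm : ∀ q : Piv, δ q ∈ maximalIdeal 𝒪) (q₀ : Piv)
    (lam : 𝒪) (hlam : lam ∈ maximalIdeal 𝒪)
    (𝔓 : Ideal (LocAmb 𝒪 Piv g))
    (hfac : ∀ (D : Type) [CommRing D] [IsDomain D] [IsLocalRing D] [Algebra 𝒪 D]
        (_hsep : ∀ x : D, (∀ n : ℕ, x ∈ maximalIdeal D ^ n) → x = 0)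
        (_hinj : Function.Injective (algebraMap 𝒪 D))
        (y : LocAmb 𝒪 Piv g →ₐ[𝒪] D) (_hy : IsLocalHom (y : LocAmb 𝒪 Piv g →+* D)),
        typeIdeal 𝒪 g δ ≤ RingHom.ker (y : LocAmb 𝒪 Piv g →+* D) →
          𝔓 ≤ RingHom.ker (y : LocAmb 𝒪 Piv g →+* D)) :
    ∃ (V : Type) (_ : CommRing V) (_ : IsDomain V) (_ : ValuationRing V)
      (x : LocAmb 𝒪 Piv g →+* V), 𝔓 ≤ RingHom.ker x ∧
        ¬ x (MvPowerSeries.C lam) ∣ x (hElt 𝒪 g q₀ (q₀ : ℕ)) := by
  classical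
  have hp : p.Prime := hpF.out
  have h2 : IsUnit (2 : 𝒪) := isUnit_two_h995 p hp hp2 𝒪 hp𝒪
  -- the ring `D = 𝒪⟦T⟧`
  haveI hDc : IsAdicComplete (maximalIdeal (PowerSeries 𝒪)) (PowerSeries 𝒪) :=
    isAdicComplete_mvPowerSeries (σ := Unit) (R := 𝒪)
  have hsep : ∀ x : PowerSeries 𝒪, (∀ n : ℕ, x ∈ maximalIdeal (PowerSeries 𝒪) ^ n) → x = 0 := by
    intro x hx
    refine hDc.toIsHausdorff.haus' x fun n => ?_
    rw [SModEq.zero, smul_eq_mul, Ideal.mul_top]
    exact hx n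
  have hinj : Function.Injective (algebraMap 𝒪 (PowerSeries 𝒪)) := by
    intro a b hab
    have := congrArg (PowerSeries.constantCoeff (R := 𝒪)) hab
    simpa using this
  -- the point
  let pt : (Piv × Fin 6) ⊕ Fin g → PowerSeries 𝒪 := fun i =>
    Sum.elim (fun qk : Piv × Fin 6 =>
      if (qk.2 : ℕ) = 0 then PowerSeries.C (δ qk.1)
      else if (qk.2 : ℕ) = 3 ∧ qk.1 = q₀ then PowerSeries.X else 0)
      (fun _ => 0) i
  have hXm : (PowerSeries.X : PowerSeries 𝒪) ∈ maximalIdeal (PowerSeries 𝒪) :=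
    X_mem_maximalIdeal_mvPowerSeries (σ := Unit) (R := 𝒪) ()
  have hCm : ∀ c : 𝒪, c ∈ maximalIdeal 𝒪 →
      (PowerSeries.C c : PowerSeries 𝒪) ∈ maximalIdeal (PowerSeries 𝒪) := fun c hc =>
    C_mem_maximalIdeal_mvPowerSeries (σ := Unit) (R := 𝒪) hc
  have hpt : ∀ i, pt i ∈ maximalIdeal (PowerSeries 𝒪) := by
    rintro (⟨q, k⟩ | i)
    · simp only [pt, Sum.elim_inl]
      split_ifs
      · exact hCm _ (hδm q)
      · exact hXm
      · exact Ideal.zero_mem _
    · simp only [pt, Sum.elim_inr]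
      exact Ideal.zero_mem _
  let xt : LocAmb 𝒪 Piv g →ₐ[𝒪] PowerSeries 𝒪 :=
    evalCNL (R := 𝒪) (maximalIdeal (PowerSeries 𝒪)) pt hpt
  have hxX : ∀ i, xt (MvPowerSeries.X i) = pt i := fun i =>
    evalCNL_X (R := 𝒪) (maximalIdeal (PowerSeries 𝒪)) pt hpt i
  have hxC : ∀ c : 𝒪, xt (MvPowerSeries.C c) = PowerSeries.C c := by
    intro c
    have : (MvPowerSeries.C c : LocAmb 𝒪 Piv g) = algebraMap 𝒪 (LocAmb 𝒪 Piv g) c := rfl
    rw [this, AlgHom.commutes]
    rfl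
  have hloc : IsLocalHom (xt : LocAmb 𝒪 Piv g →+* PowerSeries 𝒪) :=
    isLocalHom_algHom (isLocalHom_algebraMap_mvPowerSeries (σ := Unit) (R := 𝒪))
      (residue_surjective_mvPowerSeries (σ := Unit) (R := 𝒪)) xt
  -- values of the variables
  have hv0 : ∀ q : Piv, xt (vVar 𝒪 g q 0) = PowerSeries.C (δ q) := by
    intro q
    rw [vVar, hxX]
    simp [pt]
  have hv1 : ∀ q : Piv, xt (vVar 𝒪 g q 1) = 0 := by
    intro q
    rw [vVar, hxX]
    simp [pt]
  have hv2 : ∀ q : Piv, xt (vVar 𝒪 g q 2) = 0 := by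
    intro q
    rw [vVar, hxX]
    simp [pt]
  have hw1 : ∀ q : Piv, xt (wVar 𝒪 g q 1) = 0 := by
    intro q
    rw [wVar, hxX]
    simp [pt]
  have hw2 : ∀ q : Piv, xt (wVar 𝒪 g q 2) = 0 := by
    intro q
    rw [wVar, hxX]
    simp [pt]
  have hw0 : xt (wVar 𝒪 g q₀ 0) = PowerSeries.X := by
    rw [wVar, hxX]
    simp [pt]
  have hv : ∀ (q : Piv) (j : Fin 3), j ≠ 0 → xt (vVar 𝒪 g q j) = 0 := by
    intro q j hj
    fin_cases j
    · exact absurd rfl hj
    · exact hv1 q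
    · exact hv2 q
  have hw : ∀ (q : Piv) (j : Fin 3), j ≠ 0 → xt (wVar 𝒪 g q j) = 0 := by
    intro q j hj
    fin_cases j
    · exact absurd rfl hj
    · exact hw1 q
    · exact hw2 q
  have hker : typeIdeal 𝒪 g δ ≤ RingHom.ker (xt : LocAmb 𝒪 Piv g →+* PowerSeries 𝒪) := by
    rw [typeIdeal, Ideal.span_le]
    rintro a (⟨q, rfl⟩ | ⟨q, i, j, rfl⟩)
    · rw [SetLike.mem_coe, RingHom.mem_ker]
      change xt _ = 0
      rw [qV, map_sub, map_add, map_pow, map_mul, map_pow, hxC, hv0, hv1, hv2]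
      ring
    · rw [SetLike.mem_coe, RingHom.mem_ker]
      change xt _ = 0
      rw [minor, map_sub, map_mul, map_mul]
      by_cases hi : i = 0
      · by_cases hj : j = 0
        · subst hi; subst hj; ring
        · subst hi
          rw [hv q j hj, hw q j hj]
          ring
      · rw [hv q i hi, hw q i hi]
        ring
  have h𝔓 := hfac (PowerSeries 𝒪) hsep hinj xt hloc hker
  -- reduction modulo the maximal ideal
  let red : PowerSeries 𝒪 →+* PowerSeries (ResidueField 𝒪) := PowerSeries.map (residue 𝒪)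
  refine ⟨PowerSeries (ResidueField 𝒪), inferInstance, inferInstance, inferInstance,
    red.comp (xt : LocAmb 𝒪 Piv g →+* PowerSeries 𝒪), ?_, ?_⟩
  · intro a ha
    have h0 : xt a = 0 := h𝔓 ha
    rw [RingHom.mem_ker, RingHom.comp_apply]
    show red (xt a) = 0
    rw [h0, map_zero]
  · have hxlam : (red.comp (xt : LocAmb 𝒪 Piv g →+* PowerSeries 𝒪)) (MvPowerSeries.C lam) = 0 := by
      rw [RingHom.comp_apply]
      show red (xt (MvPowerSeries.C lam)) = 0
      rw [hxC]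
      show PowerSeries.map (residue 𝒪) (PowerSeries.C lam) = 0
      rw [PowerSeries.map_C, (residue_eq_zero_iff lam).mpr hlam, map_zero]
    rw [hxlam, zero_dvd_iff]
    obtain ⟨hq₀, hpq⟩ := hPiv q₀ q₀.2
    have hq1 : (((q₀ : ℕ) : 𝒪) - 1) = (((q₀ : ℕ) - 1 : ℕ) : 𝒪) := by
      rw [Nat.cast_sub hq₀.one_le, Nat.cast_one]
    have hqm : (((q₀ : ℕ) : 𝒪) - 1) ∈ maximalIdeal 𝒪 := by
      rw [hq1]
      obtain ⟨c, hc⟩ := hpq
      rw [hc, Nat.cast_mul]
      exact Ideal.mul_mem_right _ _ hp𝒪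
    have hval : (red.comp (xt : LocAmb 𝒪 Piv g →+* PowerSeries 𝒪)) (hElt 𝒪 g q₀ (q₀ : ℕ)) =
        4 * PowerSeries.X ^ 2 := by
      rw [RingHom.comp_apply]
      show red (xt (hElt 𝒪 g q₀ (q₀ : ℕ))) = _
      rw [hElt, map_sub, map_mul, hxC, qW, map_add, map_pow, map_mul, hw0, hw1, hw2]
      have h4 : xt (4 : LocAmb 𝒪 Piv g) = 4 := map_ofNat xt 4
      rw [h4]
      have hX : red PowerSeries.X = PowerSeries.X := PowerSeries.map_X _
      have hC : red (PowerSeries.C ((((q₀ : ℕ) : 𝒪) - 1) ^ 2)) = 0 := by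
        show PowerSeries.map (residue 𝒪) (PowerSeries.C ((((q₀ : ℕ) : 𝒪) - 1) ^ 2)) = 0
        rw [PowerSeries.map_C, map_pow, (residue_eq_zero_iff _).mpr hqm]
        simp
      have h4' : red 4 = 4 := map_ofNat red 4
      rw [map_sub, map_mul, map_add, map_pow, map_mul, hX, hC, h4', map_zero]
      ring
    rw [hval]
    have h4u : IsUnit (4 : 𝒪) := by
      have : (4 : 𝒪) = 2 * 2 := by norm_num
      rw [this]
      exact h2.mul h2
    have h4k : (4 : ResidueField 𝒪) ≠ 0 := by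
      have h := (h4u.map (residue 𝒪)).ne_zero
      rwa [map_ofNat] at h
    have h4 : (4 : PowerSeries (ResidueField 𝒪)) ≠ 0 := by
      intro h
      apply h4k
      have := congrArg (PowerSeries.constantCoeff (R := ResidueField 𝒪)) h
      rwa [map_ofNat, map_zero] at this
    exact mul_ne_zero h4 (pow_ne_zero _ PowerSeries.X_ne_zero)

end Fermat.Agent.S38.IA
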