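import Fermat.Agent.S38.IA.Asm
import Fermat.Agent.S38.IA.H607.Bridge2
import Fermat.Agent.S38.H506.LocDim
import Fermat.Agent.Ribet.H678.LocComp
import Fermat.Agent.S38.IA.Spec5
import Fermat.Agent.S38.IA.Hecke.Spec3
import Fermat.Agent.S59.H659.SigmaCond
import Fermat.Agent.S53
import Fermat.Agent.S54

/-!
# Row HARD: the assembly with all closed leaves wired in   (helper995)

`iaCore_of_open_leaves : IALocCompStatement → IAGalStatement → IAHeckeStatement →
  IACoreStatement`.

Closed leaves used: frozen S53 (`Fermat.Agent.S53.result`), frozen S54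
(`Fermat.Agent.S54.result`), COND (`S59.H659.sigmaCondStatement`), BRIDGE-1/2/3
(`S38.IA.H607.iaBridge*`, helper607), LOC-DIM (`S38.H506.iaLocDim`, helper506).
`iaCore_of_gal_hecke : IAGalStatement → IAHeckeStatement → IACoreStatement` uses in addition
LOC-COMP (`Ribet.H678.iaLocComp`, helper678: the type ideal of several pivots is prime).
Open leaves: GAL (cell GAL), HECKE (the mountain).
-/

set_option autoImplicit false

namespace Fermat.Agent.S38.IA

open Fermat.Agent.S59.Arch Fermat.Agent.S59.TW.H959

/-- The frozen S53 in `Prop` form. -/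
theorem defRingExists_h995 : DefRingExistsStatement :=
  fun 𝒪 _ _ _ _ _ ρbar 𝒟 habs h𝒟 hbar hfin =>
    Fermat.Agent.S53.result 𝒪 ρbar 𝒟 habs h𝒟 hbar hfin

/-- The frozen S54 in `Prop` form. -/
theorem rToT_h995 : RToTStatement :=
  fun D _ _ _ _ _ _ _ _ _ _ _ _ _ H hS h𝒟 hres => Fermat.Agent.S54.result D H hS h𝒟 hres

/-- **Row HARD with all closed leaves wired in**: three open leaves remain. -/
theorem iaCore_of_open_leaves (hComp : IALocCompStatement) (hGal : IAGalStatement)
    (hHecke : IAHeckeStatement) : IACoreStatement :=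
  iaCore_of_leaves defRingExists_h995 Fermat.Agent.S59.H659.sigmaCondStatement rToT_h995
    H607.iaBridgeIdeal H607.iaBridge H607.iaBridgeBase hComp Fermat.Agent.S38.H506.iaLocDim
    hGal hHecke

/-- **Row HARD with the whole local cell wired in**: only GAL and HECKE remain. -/
theorem iaCore_of_gal_hecke (hGal : IAGalStatement) (hHecke : IAHeckeStatement) :
    IACoreStatement :=
  iaCore_of_open_leaves Fermat.Agent.Ribet.H678.iaLocComp hGal hHecke

/-- **Row HARD for `5 ≤ p`** (the form consumed by the TOP glue of S43): only GAL and the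
Hecke side for `5 ≤ p` (`Hecke.IAHecke5Statement`, helper3) remain. -/
theorem iaCore5_of_gal_hecke5 (hGal : IAGalStatement) (hHecke5 : Hecke.IAHecke5Statement) :
    IACore5Statement := by
  intro p _ hp5 𝒪 _ _ _ _ _ _ ρbar Smin h hflat Piv hPiv hne hroots hmod
  exact iaCore_at defRingExists_h995 Fermat.Agent.S59.H659.sigmaCondStatement rToT_h995
    H607.iaBridgeIdeal H607.iaBridge H607.iaBridgeBase Fermat.Agent.Ribet.H678.iaLocComp
    Fermat.Agent.S38.H506.iaLocDim hGal p 𝒪 ρbar Smin h hflat Piv hPiv hne hroots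
    (fun ζ hζ hmin => hHecke5 p hp5 𝒪 ρbar Smin h hflat ζ hζ Piv hPiv hmod hmin)

end Fermat.Agent.S38.IA
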