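import Fermat.Agent.S38.IA.AsmClosed
import Fermat.Agent.S38.H401.TopFinal

/-!
# Row HARD, CLOSED: the official target `Ribet.H723.HardMinScalarStatement`  (row-lead helper995)

`hardMinScalar_closed` = TOP (helper401, `S38/H401/TopFinal.lean`, realizer-free) applied to
`iaCore5_closed` (`AsmClosed.lean`).
-/

set_option autoImplicit false

namespace Fermat.Agent.S38.IA

/-- **Row HARD**: a modular conductor level of a Frey package, prime to `p`, minimal among the
modular levels, all of whose odd prime factors are scalar primes `≡ 1 mod p`, has no odd prime
factor. -/
theorem hardMinScalar_closed : Fermat.Agent.Ribet.H723.HardMinScalarStatement :=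
  Fermat.Agent.S38.H401.hardMinScalar_of_iaCore5_final iaCore5_closed

end Fermat.Agent.S38.IA
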