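import Fermat.Agent.S59.TW.H959.Iface

/-!
# Row HARD (row 37, hard case `q ≡ 1 mod p`, scalar Frobenius): frozen interface of the
# Ihara-avoidance chain, Hecke side and core statement   (architect / row-lead helper995)

Board: `coord/HARD.md` on the row trunk `origin/helper995`.  Vocabulary = row S59
(`S59/Arch/SpecRT.lean`: `ResidualHyp`, `sigmaCond`, `wilesLevel`, `ResModular`;
`S59/TW/H959/Iface.lean`: `HeckePkg`, `IsTWSet`, `IsGroupRingBasis`).
Only sorry-free definitions in this file.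

## Route (single-sided Ihara avoidance)
`ρ̄` as in S56/S59 (`ResidualHyp`), flat at `p`; `Piv` a finite set of PIVOT primes
(`q ∉ Smin`, `q ≡ 1 mod p`, every Frobenius at `q` is a scalar on `ρ̄`).  Suppose `ρ̄` is modular of
the squarefree level `L = ribetLevel p Smin Piv = ∏_{Smin ∖ p} r · ∏_{Piv} q` and (MIN) of none of
the levels `L / q`, `q ∈ Piv`.  For every Taylor–Wiles set `Q` (relative to `Smin ∪ Piv`) the
Hecke side provides a module `M_Q` over the Prelude ring `T_Q = heckeLocal (N_min ∏_{Piv ∪ Q} q²)`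
(classically: the `χ`-part, `χ = ⊗_{q ∈ Piv} χ_q`, `χ_q` of order `p` and conductor `q`, of
`H¹(Γ₀(N_min) ∩ Γ_H(Piv ∪ Q), 𝒪)_𝔪`, Hecke operators twisted to trivial character) such that
* `M_Q / (w_i^(p^n) - 1)` is free of rank `d > 0` over `𝒪[(ℤ/p^n)^r]` (`w_i ∈ T_Q`, `w_i ≡ 1`);
* (SUPP-NU) `M_Q` is supported on the points of `T_Q` whose Galois representation is NOT unipotent
  on inertia at the pivots (⇐ frozen S36 + "the twist is `q²`-new", or geometry of `X_H(q)`);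
* (ST) `(tr ρ(Frob_q)² - (1+q)²) M_Q ⊆ (ζ_p - 1) M_Q` for `q ∈ Piv`
  (⇐ `M_Q / (ζ_p - 1) ≅ M¹_Q / (ζ_p - 1)`, and on the trivial-character module `M¹_Q` every
  eigensystem is `q`-new by (MIN) + Taylor–Wiles control at the level `L / q`, hence Steinberg at
  `q`: frozen S35, or S34 + "unramified ⇒ old").
`helper901`'s machine-checked core (`S38/H901/IALevel.lean`, multi-component version in
`S38/IA/Multi.lean`) turns this, a relative presentation of the deformation rings (GAL) and the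
local lifting rings of type `ψ` (LOC) into `False`.
-/

set_option autoImplicit false

open Polynomial IsLocalRing

namespace Fermat.Agent.S38.IA

open Fermat.Agent.S59.Arch Fermat.Agent.S59.TW.H959

/-- **Pivot sets.**  Every `q ∈ Piv` is a prime outside `Smin` (so `ρ̄` is unramified at `q` under
`ResidualHyp`), `q ≡ 1 mod p`, and every Frobenius at every place over `q` acts on `ρ̄` as a
scalar. -/
def IsPivotSet {k : Type} [Field k] (p : ℕ) (ρbar : ResidualGaloisRep k)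
    (Smin Piv : Finset ℕ) : Prop :=
  ∀ q ∈ Piv, q.Prime ∧ q ∉ Smin ∧ p ∣ q - 1 ∧
    ∀ P : ValuationSubring (AlgebraicClosure ℚ), P.LiesOverPrime q →
      ∀ φ : AlgebraicClosure ℚ ≃ₐ[ℚ] AlgebraicClosure ℚ, P.IsFrobeniusAt φ q →
        ∃ c : k, ρbar.ρ φ = c • (1 : Module.End k ρbar.V)

/-- **Ribet's level**: the squarefree level `∏_{q ∈ Smin, q ≠ p} q · ∏_{q ∈ Piv} q`. -/
noncomputable def ribetLevel (p : ℕ) (Smin Piv : Finset ℕ) : ℕ :=
  (∏ q ∈ Smin.erase p, q) * ∏ q ∈ Piv, q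

section Hecke

variable (p : ℕ)
  (𝒪 : Type) [CommRing 𝒪] [IsDomain 𝒪] [IsDiscreteValuationRing 𝒪]
  [IsAdicComplete (maximalIdeal 𝒪) 𝒪]
  (ρbar : ResidualGaloisRep (ResidueField 𝒪))

/-- **The Hecke side of Ihara avoidance at one Taylor–Wiles set `Q = {q_i}` of level `n`.**
`lam` is `ζ_p - 1`; `d` is the rank (independent of `Q`). -/
def HasIAModule (Smin Piv : Finset ℕ) (lam : 𝒪) (d n : ℕ) {r : ℕ} (qv : Fin r → ℕ) : Prop :=
  ∃ (_ : NeZero (wilesLevel p .flat Smin (Smin ∪ Piv ∪ Finset.univ.image qv)))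
    (PQ : HeckePkg p 𝒪 ρbar .flat Smin (Smin ∪ Piv ∪ Finset.univ.image qv))
    (MQ : Type) (_ : AddCommGroup MQ) (_ : Module PQ.T MQ)
    (w : Fin r → PQ.T) (b : Fin d → MQ),
    -- freeness over the group ring of the Taylor–Wiles primes
    IsGroupRingBasis 𝒪 (p ^ n) w b ∧
    (∀ i, w i - 1 ∈ maximalIdeal PQ.T) ∧
    -- (SUPP-NU) the module is supported on the points which are not unipotent at the pivots
    (∀ t : PQ.T,
      (∀ (𝒪' : Type) [CommRing 𝒪'] [IsDomain 𝒪'] [IsDiscreteValuationRing 𝒪'] [CharZero 𝒪']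
          [Algebra 𝒪 𝒪'] (x : PQ.T →ₐ[𝒪] 𝒪') (hx : IsLocalHom (x : PQ.T →+* 𝒪')),
          (∀ q ∈ Piv,
            ¬ (PQ.H.ρ.baseChangeAlong (x : PQ.T →+* 𝒪') hx).IsUnipotentOnInertiaAt q) →
          x t = 0) →
      ∀ m : MQ, t • m = 0) ∧
    -- (ST) the Steinberg element is divisible by `lam` on the module
    (∀ q ∈ Piv, ∀ P : ValuationSubring (AlgebraicClosure ℚ), P.LiesOverPrime q →
      ∀ φ : AlgebraicClosure ℚ ≃ₐ[ℚ] AlgebraicClosure ℚ, P.IsFrobeniusAt φ q →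
        ∀ m : MQ, ∃ m' : MQ,
          (PQ.H.ρ.trace φ ^ 2 - ((1 + q : ℕ) : PQ.T) ^ 2) • m = algebraMap 𝒪 PQ.T lam • m')

end Hecke

/-- **LEAF HECKE of row HARD (the mountain; shared with cell TW of row S59).** -/
def IAHeckeStatement : Prop :=
  ∀ (p : ℕ) [Fact p.Prime]
    (𝒪 : Type) [CommRing 𝒪] [IsDomain 𝒪] [IsDiscreteValuationRing 𝒪]
    [IsAdicComplete (maximalIdeal 𝒪) 𝒪] [Finite (ResidueField 𝒪)] [CharZero 𝒪]
    (ρbar : ResidualGaloisRep (ResidueField 𝒪)) (Smin : Finset ℕ)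
    (_h : ResidualHyp p 𝒪 ρbar Smin)
    (_hflat : (GaloisRepAdic.ofResidualGaloisRep ρbar).IsFlatAt p)
    (ζ : 𝒪) (_hζ : IsPrimitiveRoot ζ p)
    (Piv : Finset ℕ) (_hPiv : IsPivotSet p ρbar Smin Piv)
    (_hmod : ResModular 𝒪 ρbar (ribetLevel p Smin Piv) (Smin ∪ Piv))
    (_hmin : ∀ q ∈ Piv, ∀ S : Finset ℕ,
      ¬ ResModular 𝒪 ρbar (ribetLevel p Smin (Piv.erase q)) S),
    ∃ d : ℕ, 0 < d ∧ ∀ (n r : ℕ) (qv : Fin r → ℕ), IsTWSet p ρbar (Smin ∪ Piv) n qv →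
      HasIAModule p 𝒪 ρbar Smin Piv (ζ - 1) d n qv

/-- **IA-CORE: level lowering at a pivot** (the output of the Ihara-avoidance chain).
`𝒪` contains the `p`-power roots of unity of order dividing `q - 1`, `q ∈ Piv`. -/
def IACoreStatement : Prop :=
  ∀ (p : ℕ) [Fact p.Prime]
    (𝒪 : Type) [CommRing 𝒪] [IsDomain 𝒪] [IsDiscreteValuationRing 𝒪]
    [IsAdicComplete (maximalIdeal 𝒪) 𝒪] [Finite (ResidueField 𝒪)] [CharZero 𝒪]
    (ρbar : ResidualGaloisRep (ResidueField 𝒪)) (Smin : Finset ℕ)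
    (_h : ResidualHyp p 𝒪 ρbar Smin)
    (_hflat : (GaloisRepAdic.ofResidualGaloisRep ρbar).IsFlatAt p)
    (Piv : Finset ℕ) (_hPiv : IsPivotSet p ρbar Smin Piv) (_hne : Piv.Nonempty)
    (_hroots : ∀ q ∈ Piv, ∀ m : ℕ, p ^ m ∣ q - 1 → ∃ ζ : 𝒪, IsPrimitiveRoot ζ (p ^ m))
    (_hmod : ResModular 𝒪 ρbar (ribetLevel p Smin Piv) (Smin ∪ Piv)),
    ∃ q ∈ Piv, ∃ S : Finset ℕ, ResModular 𝒪 ρbar (ribetLevel p Smin (Piv.erase q)) S

end Fermat.Agent.S38.IA
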