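import Fermat.Agent.S38.IA.Spec2

/-!
# Row HARD: interface, part 4 — LOC-COMP, the component of a type ideal   (helper995)

`IALocCompStatement` is what the assembly (`S38/IA/Asm.lean`) consumes from the local cell in
place of `IALocPrimeStatement`:  for every vector of type values `δ` there is a PRIME ideal
`𝔓 ⊇ typeIdeal δ` of the ambient ring such that every point `y` of the ambient ring with values
in a separated local domain `D ⊇ 𝒪` which kills `typeIdeal δ` kills `𝔓` (FACTOR).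

* `iaLocComp_of_prime : IALocPrimeStatement → IALocCompStatement` (take `𝔓 = typeIdeal δ`);
* the image-ring models (`Ribet/H85/LocNStd.lean`, `locPsiStd_ker_isPrime`,
  `locPsiStd_factor`; `Ribet/H678/RChi*.lean`; `S59/H359/IAPackage.lean`) give it with
  `𝔓 = ker (P → E⟦T_q, x_j⟧)`: a point `y` killing `typeIdeal δ` has `Q(y v_q) = δ_q² ≠ 0`, so
  `y v_q ≠ 0` and `y w_q` is proportional to it.

The dimension bound for `𝔓` follows from `IALocDimStatement` (`𝔓 ⊇ typeIdeal δ`), and the point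
needed by the engine is constructed in the assembly from FACTOR with `D = 𝒪⟦T⟧`
(`v_q ↦ (δ_q, 0, 0)`, `w_{q₀} ↦ (T, 0, 0)`, then reduce modulo `𝔪_𝒪`).
-/

set_option autoImplicit false

open IsLocalRing

namespace Fermat.Agent.S38.IA

/-- **LOC-COMP.**  Every type ideal lies in a prime ideal with the FACTOR property. -/
def IALocCompStatement : Prop :=
  ∀ (p : ℕ) [Fact p.Prime] (_hp2 : p ≠ 2)
    (𝒪 : Type) [CommRing 𝒪] [IsDomain 𝒪] [IsDiscreteValuationRing 𝒪]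
    [IsAdicComplete (maximalIdeal 𝒪) 𝒪] [CharZero 𝒪] (_hp𝒪 : (p : 𝒪) ∈ maximalIdeal 𝒪)
    (Piv : Finset ℕ) (_hPiv : ∀ q ∈ Piv, q.Prime ∧ p ∣ q - 1) (g : ℕ)
    (δ : Piv → 𝒪) (_hδ : ∀ q : Piv, IsTypeValue p (q : ℕ) (δ q)),
    ∃ 𝔓 : Ideal (LocAmb 𝒪 Piv g), 𝔓.IsPrime ∧ typeIdeal 𝒪 g δ ≤ 𝔓 ∧
      ∀ (D : Type) [CommRing D] [IsDomain D] [IsLocalRing D] [Algebra 𝒪 D]
        (_hsep : ∀ x : D, (∀ n : ℕ, x ∈ maximalIdeal D ^ n) → x = 0)
        (_hinj : Function.Injective (algebraMap 𝒪 D))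
        (y : LocAmb 𝒪 Piv g →ₐ[𝒪] D) (_hy : IsLocalHom (y : LocAmb 𝒪 Piv g →+* D)),
        typeIdeal 𝒪 g δ ≤ RingHom.ker (y : LocAmb 𝒪 Piv g →+* D) →
          𝔓 ≤ RingHom.ker (y : LocAmb 𝒪 Piv g →+* D)

/-- `LOC-PRIME ⇒ LOC-COMP`. -/
theorem iaLocComp_of_prime (h : IALocPrimeStatement) : IALocCompStatement := by
  intro p _ hp2 𝒪 _ _ _ _ _ hp𝒪 Piv hPiv g δ hδ
  exact ⟨typeIdeal 𝒪 g δ, h p hp2 𝒪 hp𝒪 Piv hPiv g δ hδ, le_refl _,
    fun D _ _ _ _ _ _ y _ hy => hy⟩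

end Fermat.Agent.S38.IA
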